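import Mathlib
import Fermat.Prelude.Def_ModularCurve_PeriodMap

/-!
Homomorphisms on a congruence group which kill parabolic and elliptic elements, and the Hecke
operators on them given by coset representatives.
-/

set_option autoImplicit false

noncomputable section

open scoped MatrixGroups

namespace FLTAgent.PeriodHecke

local notation "M2" => Matrix (Fin 2) (Fin 2) ℤ

variable {Γ : Subgroup SL(2, ℤ)}

/-- The integer matrix of an element of the group. -/
def mat (γ : Γ) : M2 := ((γ : SL(2, ℤ)) : M2)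

theorem mat_mul (γ δ : Γ) : mat (γ * δ) = mat γ * mat δ := by simp [mat]

theorem mat_one : mat (1 : Γ) = 1 := by simp [mat]

theorem mat_det (γ : Γ) : (mat γ).det = 1 := (γ : SL(2, ℤ)).2

theorem mat_injective : Function.Injective (mat (Γ := Γ)) :=
  fun _ _ h => Subtype.ext (Subtype.ext h)

theorem trace_sq (A : M2) (h : A.det = 1) : (A * A).trace = A.trace ^ 2 - 2 := by
  rw [Matrix.det_fin_two] at h
  simp [Matrix.trace_fin_two, Matrix.mul_apply, Fin.sum_univ_two]
  linear_combination -2 * h

theorem trace_pow_rec (A : M2) (h : A.det = 1) (n : ℕ) :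
    (A ^ (n + 2)).trace = A.trace * (A ^ (n + 1)).trace - (A ^ n).trace := by
  have hA : A * A = A.trace • A - 1 := by
    rw [Matrix.det_fin_two] at h
    ext i j
    rw [Matrix.sub_apply, Matrix.smul_apply, smul_eq_mul, Matrix.mul_apply, Fin.sum_univ_two,
      Matrix.trace_fin_two]
    fin_cases i <;> fin_cases j <;> simp <;> first | linear_combination h | linear_combination -h | ring
  rw [show A ^ (n + 2) = A ^ n * (A * A) by rw [pow_add, sq], hA, mul_sub, Matrix.mul_smul,
    mul_one, ← pow_succ, Matrix.trace_sub, Matrix.trace_smul, smul_eq_mul]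

/-- An element of trace of absolute value less than two has finite order. -/
theorem pow_twelve_eq_one (A : M2) (h : A.det = 1) (ht : A.trace ^ 2 < 4) : A ^ 12 = 1 := by
  have hA : A * A = A.trace • A - 1 := by
    rw [Matrix.det_fin_two] at h
    ext i j
    rw [Matrix.sub_apply, Matrix.smul_apply, smul_eq_mul, Matrix.mul_apply, Fin.sum_univ_two,
      Matrix.trace_fin_two]
    fin_cases i <;> fin_cases j <;> simp <;> first | linear_combination h | linear_combination -h | ring
  have h1 : -1 ≤ A.trace ∧ A.trace ≤ 1 := by constructor <;> nlinarith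
  obtain h0 | h0 | h0 : A.trace = -1 ∨ A.trace = 0 ∨ A.trace = 1 := by omega
  · have h3 : A ^ 3 = 1 := by
      rw [pow_succ, sq, hA, h0, sub_mul, Matrix.smul_mul, one_mul, hA, h0]
      module
    rw [show 12 = 3 * 4 from rfl, pow_mul, h3, one_pow]
  · have h4 : A ^ 4 = 1 := by
      rw [show 4 = 2 * 2 from rfl, pow_mul, sq, sq, hA, h0, zero_smul, zero_sub, neg_mul_neg, one_mul]
    rw [show 12 = 4 * 3 from rfl, pow_mul, h4, one_pow]
  · have h3 : A ^ 3 = -1 := by
      rw [pow_succ, sq, hA, h0, sub_mul, Matrix.smul_mul, one_mul, hA, h0]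
      module
    rw [show 12 = 3 * 4 from rfl, pow_mul, h3, neg_one_pow_eq_one_iff_even (by decide) |>.2 (by decide)]

/-- Powers of an elliptic or parabolic element are elliptic or parabolic. -/
theorem trace_pow_le (A : M2) (h : A.det = 1) (ht : A.trace ^ 2 ≤ 4) (n : ℕ) :
    (A ^ n).trace ^ 2 ≤ 4 := by
  have hb : -2 ≤ A.trace ∧ A.trace ≤ 2 := by constructor <;> nlinarith
  have key : ∀ m : ℕ, (A ^ (m + 1)).trace ^ 2 - A.trace * (A ^ (m + 1)).trace * (A ^ m).trace
      + (A ^ m).trace ^ 2 = 4 - A.trace ^ 2 := by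
    intro m
    induction m with
    | zero => simp [Matrix.trace_one]; ring
    | succ m ih =>
      rw [show m + 1 + 1 = m + 2 from rfl, trace_pow_rec A h m, ← ih]
      ring
  have hk := key n
  rcases hb.1.lt_or_eq with h1 | h1
  · rcases hb.2.lt_or_eq with h2 | h2
    · -- positive definite form
      nlinarith [sq_nonneg (2 * (A ^ (n + 1)).trace - A.trace * (A ^ n).trace),
        mul_nonneg (sub_nonneg.2 ht) (sq_nonneg (A ^ n).trace)]
    · have : ∀ m : ℕ, (A ^ m).trace = 2 ∧ (A ^ (m + 1)).trace = 2 := by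
        intro m
        induction m with
        | zero => simp [Matrix.trace_one, h2]
        | succ m ih =>
          refine ⟨ih.2, ?_⟩
          rw [trace_pow_rec A h m, h2, ih.1, ih.2]
          norm_num
      rw [(this n).1]; norm_num
  · have : ∀ m : ℕ, (A ^ m).trace ^ 2 = 4 ∧ (A ^ (m + 1)).trace = -(A ^ m).trace := by
      intro m
      induction m with
      | zero => simp [Matrix.trace_one, ← h1]
      | succ m ih =>
        refine ⟨by rw [ih.2, neg_sq]; exact ih.1, ?_⟩
        rw [trace_pow_rec A h m, ← h1, ih.2]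
        ring
    exact (this n).1.le

variable (Γ) in
/-- Homomorphisms killing all parabolic and elliptic elements. -/
def Hpar (A : Type*) [AddCommGroup A] : AddSubgroup (Additive Γ →+ A) where
  carrier := {φ | ∀ γ : Γ, (mat γ).trace ^ 2 ≤ 4 → φ (Additive.ofMul γ) = 0}
  zero_mem' := fun _ _ => rfl
  add_mem' := by
    intro φ ψ hφ hψ γ hγ
    show φ _ + ψ _ = 0
    rw [hφ γ hγ, hψ γ hγ, add_zero]
  neg_mem' := by
    intro φ hφ γ hγ
    show -φ _ = 0
    rw [hφ γ hγ, neg_zero]

variable {A B : Type*} [AddCommGroup A] [AddCommGroup B]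

theorem mem_Hpar {φ : Additive Γ →+ A} :
    φ ∈ Hpar Γ A ↔ ∀ γ : Γ, (mat γ).trace ^ 2 ≤ 4 → φ (Additive.ofMul γ) = 0 :=
  Iff.rfl

theorem comp_mem_Hpar (f : A →+ B) {φ : Additive Γ →+ A} (hφ : φ ∈ Hpar Γ A) :
    f.comp φ ∈ Hpar Γ B := fun γ hγ => by simp [hφ γ hγ]

theorem hom_congr (φ : Additive Γ →+ A) {a b : Γ} (h : mat a = mat b) :
    φ (Additive.ofMul a) = φ (Additive.ofMul b) := by rw [mat_injective h]

/-- Pushing forward along a map of the values. -/
def mapHpar (f : A →+ B) : Hpar Γ A →+ Hpar Γ B where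
  toFun φ := ⟨f.comp φ.1, comp_mem_Hpar f φ.2⟩
  map_zero' := Subtype.ext (AddMonoidHom.ext fun _ => f.map_zero)
  map_add' _ _ := Subtype.ext (AddMonoidHom.ext fun _ => f.map_add _ _)

@[simp] theorem coe_mapHpar (f : A →+ B) (φ : Hpar Γ A) :
    (mapHpar f φ : Additive Γ →+ B) = f.comp φ.1 := rfl

variable (Γ) in
/-- A finite family of integer matrices which represents a double coset of the group. -/
structure HeckeFamily (I : Type*) where
  α : I → M2
  det_ne : ∀ i, (α i).det ≠ 0
  exists_rel : ∀ (γ : Γ) (i : I), ∃ (j : I) (δ : Γ), α i * mat γ = mat δ * α j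
  inj : ∀ (δ : Γ) (i j : I), mat δ * α i = α j → i = j

namespace HeckeFamily

variable {I : Type*} (F : HeckeFamily Γ I)

/-- The permutation of the representatives. -/
def next (γ : Γ) (i : I) : I := (F.exists_rel γ i).choose

/-- The cocycle of the representatives. -/
def coc (γ : Γ) (i : I) : Γ := (F.exists_rel γ i).choose_spec.choose

theorem rel (γ : Γ) (i : I) : F.α i * mat γ = mat (F.coc γ i) * F.α (F.next γ i) :=
  (F.exists_rel γ i).choose_spec.choose_spec

theorem cancel {δ δ' : Γ} {i : I} (h : mat δ * F.α i = mat δ' * F.α i) : δ = δ' := by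
  apply mat_injective
  have h' := congrArg (fun X => X * Matrix.adjugate (F.α i)) h
  simp only [Matrix.mul_assoc, Matrix.mul_adjugate, Matrix.mul_smul, mul_one] at h'
  exact smul_right_injective M2 (F.det_ne i) h'

theorem eq_of_rel {γ δ : Γ} {i j : I} (h : F.α i * mat γ = mat δ * F.α j) :
    F.next γ i = j ∧ F.coc γ i = δ := by
  rw [F.rel] at h
  have hj : F.next γ i = j := by
    refine F.inj (δ⁻¹ * F.coc γ i) _ _ ?_
    rw [mat_mul, mul_assoc, h, ← mul_assoc, ← mat_mul, inv_mul_cancel, mat_one, one_mul]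
  rw [hj] at h
  exact ⟨hj, F.cancel h⟩

theorem mul_rel (γ γ' : Γ) (i : I) :
    F.next (γ * γ') i = F.next γ' (F.next γ i) ∧
      F.coc (γ * γ') i = F.coc γ i * F.coc γ' (F.next γ i) := by
  refine F.eq_of_rel ?_
  rw [mat_mul, ← mul_assoc, F.rel, mul_assoc, F.rel, ← mul_assoc, ← mat_mul]

theorem one_rel (i : I) : F.next 1 i = i ∧ F.coc 1 i = 1 :=
  F.eq_of_rel (by rw [mat_one, mul_one, one_mul])

/-- The permutation attached to an element. -/
def perm (γ : Γ) : Equiv.Perm I where
  toFun := F.next γ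
  invFun := F.next γ⁻¹
  left_inv i := by rw [← (F.mul_rel γ γ⁻¹ i).1, mul_inv_cancel, (F.one_rel i).1]
  right_inv i := by rw [← (F.mul_rel γ⁻¹ γ i).1, inv_mul_cancel, (F.one_rel i).1]

@[simp] theorem perm_apply (γ : Γ) (i : I) : F.perm γ i = F.next γ i := rfl

theorem pow_rel (φ : Additive Γ →+ A) (γ : Γ) (i : I) (d : ℕ) :
    F.next (γ ^ d) i = (F.perm γ)^[d] i ∧
      φ (Additive.ofMul (F.coc (γ ^ d) i)) =
        ∑ k ∈ Finset.range d, φ (Additive.ofMul (F.coc γ ((F.perm γ)^[k] i))) := by
  induction d with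
  | zero => simp [(F.one_rel i).1, (F.one_rel i).2]
  | succ d ih =>
    rw [pow_succ, (F.mul_rel (γ ^ d) γ i).1, (F.mul_rel (γ ^ d) γ i).2, ofMul_mul, map_add,
      Finset.sum_range_succ, ih.2, ih.1, Function.iterate_succ_apply']
    exact ⟨rfl, rfl⟩

variable [Fintype I]

/-- The Hecke operator of a family on homomorphisms. -/
def hecke : (Additive Γ →+ A) →+ (Additive Γ →+ A) where
  toFun φ :=
    { toFun := fun γ => ∑ i, φ (Additive.ofMul (F.coc (Additive.toMul γ) i))
      map_zero' := by simp [(F.one_rel _).2]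
      map_add' := fun γ γ' => by
        simp only [toMul_add, (F.mul_rel _ _ _).2, ofMul_mul, map_add, Finset.sum_add_distrib]
        congr 1
        exact Equiv.sum_comp (F.perm (Additive.toMul γ))
          (fun i => φ (Additive.ofMul (F.coc (Additive.toMul γ') i))) }
  map_zero' := by ext γ; simp
  map_add' φ ψ := by ext γ; simp [Finset.sum_add_distrib]

theorem hecke_apply (φ : Additive Γ →+ A) (γ : Γ) :
    F.hecke φ (Additive.ofMul γ) = ∑ i, φ (Additive.ofMul (F.coc γ i)) := rfl

theorem hecke_comp (f : A →+ B) (φ : Additive Γ →+ A) :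
    F.hecke (f.comp φ) = f.comp (F.hecke φ) := by
  refine AddMonoidHom.ext fun γ => ?_
  exact (map_sum f (fun i => φ (Additive.ofMul (F.coc (Additive.toMul γ) i))) Finset.univ).symm

/-- The Hecke operator preserves the homomorphisms killing parabolic and elliptic elements. -/
theorem hecke_mem {φ : Additive Γ →+ A} (hφ : φ ∈ Hpar Γ A) : F.hecke φ ∈ Hpar Γ A := by
  classical
  intro γ hγ
  rw [hecke_apply]
  set σ := F.perm γ
  set g : I → A := fun i => φ (Additive.ofMul (F.coc γ i))
  -- orbit sums vanish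
  have horb : ∀ i, ∑ k ∈ Finset.range (Function.minimalPeriod σ i), g (σ^[k] i) = 0 := by
    intro i
    obtain ⟨h1, h2⟩ := F.pow_rel φ γ i (Function.minimalPeriod σ i)
    rw [← h2]
    refine hφ _ ?_
    set d := Function.minimalPeriod σ i
    rw [Function.iterate_minimalPeriod] at h1
    have hr := F.rel (γ ^ d) i
    rw [h1] at hr
    have htr : (mat (F.coc (γ ^ d) i)).trace = (mat (γ ^ d)).trace := by
      have h' := congrArg (fun X => (X * Matrix.adjugate (F.α i)).trace) hr
      simp only [Matrix.mul_assoc, Matrix.mul_adjugate, Matrix.mul_smul, mul_one, Matrix.trace_smul]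
        at h'
      rw [Matrix.trace_mul_comm, Matrix.mul_assoc, Matrix.adjugate_mul, Matrix.mul_smul, mul_one,
        Matrix.trace_smul] at h'
      exact (mul_left_cancel₀ (F.det_ne i) h').symm
    rw [htr, show mat (γ ^ d) = mat γ ^ d by simp [mat]]
    exact trace_pow_le _ (mat_det γ) hγ d
  let S : Setoid I := Equiv.Perm.SameCycle.setoid σ
  rw [show ∑ i, φ (Additive.ofMul (F.coc γ i)) = ∑ i, g i from rfl, Finset.sum_partition S]
  refine Finset.sum_eq_zero fun q hq => ?_
  obtain ⟨i, -, rfl⟩ := Finset.mem_image.1 hq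
  have hd : 0 < Function.minimalPeriod σ i := Function.minimalPeriod_pos_of_mem_periodicPts
    (Function.injective_iff_periodicPts_eq_univ.1 σ.injective ▸ Set.mem_univ i)
  rw [← horb i, ← Finset.sum_image (f := g) (g := fun k => σ^[k] i)]
  · refine Finset.sum_congr ?_ fun _ _ => rfl
    ext j
    simp only [Finset.mem_filter, Finset.mem_univ, true_and, Quotient.eq, Finset.mem_image,
      Finset.mem_range]
    constructor
    · intro hj
      obtain ⟨k, hk⟩ := (Equiv.Perm.SameCycle.symm hj).exists_nat_pow_eq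
      refine ⟨k % Function.minimalPeriod σ i, Nat.mod_lt _ hd, ?_⟩
      rw [Function.iterate_mod_minimalPeriod_eq, ← hk]
      simp [Equiv.Perm.coe_pow]
    · rintro ⟨k, -, rfl⟩
      exact Equiv.Perm.SameCycle.symm ⟨k, by rw [zpow_natCast, Equiv.Perm.coe_pow]⟩
  · intro a ha b hb hab
    exact (Function.iterate_eq_iterate_iff_of_lt_minimalPeriod (Finset.mem_range.1 ha)
      (Finset.mem_range.1 hb)).1 hab

/-- The Hecke operator on `Hpar`. -/
def heckePar : Hpar Γ A →+ Hpar Γ A where
  toFun φ := ⟨F.hecke φ.1, F.hecke_mem φ.2⟩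
  map_zero' := Subtype.ext F.hecke.map_zero
  map_add' _ _ := Subtype.ext (F.hecke.map_add _ _)

@[simp] theorem coe_heckePar (φ : Hpar Γ A) : (F.heckePar φ : Additive Γ →+ A) = F.hecke φ.1 := rfl

theorem heckePar_mapHpar (f : A →+ B) (φ : Hpar Γ A) :
    F.heckePar (mapHpar f φ) = mapHpar f (F.heckePar φ) := Subtype.ext (F.hecke_comp f φ.1)

/-- Change of representatives, twisted by a matrix normalising the group. -/
theorem hecke_intertwine {J : Type*} [Fintype J] (G : HeckeFamily Γ J) (c : Γ →* Γ) (W : M2)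
    (hW : W.det ≠ 0) (hc : ∀ γ, W * mat γ = mat (c γ) * W) (e : J ≃ I) (δ : J → Γ)
    (hδ : ∀ j, W * G.α j = mat (δ j) * F.α (e j) * W) (φ : Additive Γ →+ A) :
    G.hecke (φ.comp c.toAdditive) = (F.hecke φ).comp c.toAdditive := by
  refine AddMonoidHom.ext fun γ => ?_
  obtain ⟨γ, rfl⟩ := Additive.ofMul.surjective γ
  show ∑ j, φ (Additive.ofMul (c (G.coc γ j))) = ∑ i, φ (Additive.ofMul (F.coc (c γ) i))
  have key : ∀ j, F.next (c γ) (e j) = e (G.next γ j) ∧
      F.coc (c γ) (e j) = (δ j)⁻¹ * c (G.coc γ j) * δ (G.next γ j) := by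
    intro j
    refine F.eq_of_rel ?_
    have h : mat (δ j) * (F.α (e j) * mat (c γ)) * W =
        mat (c (G.coc γ j) * δ (G.next γ j)) * F.α (e (G.next γ j)) * W := by
      calc mat (δ j) * (F.α (e j) * mat (c γ)) * W
          = mat (δ j) * F.α (e j) * (mat (c γ) * W) := by simp only [mul_assoc]
        _ = (mat (δ j) * F.α (e j) * W) * mat γ := by rw [← hc]; simp only [mul_assoc]
        _ = W * (G.α j * mat γ) := by rw [← hδ]; simp only [mul_assoc]
        _ = (W * mat (G.coc γ j)) * G.α (G.next γ j) := by rw [G.rel]; simp only [mul_assoc]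
        _ = mat (c (G.coc γ j)) * (W * G.α (G.next γ j)) := by rw [hc]; simp only [mul_assoc]
        _ = _ := by rw [hδ, mat_mul]; simp only [mul_assoc]
    have h' := congrArg (fun X => X * Matrix.adjugate W) h
    simp only [Matrix.mul_assoc, Matrix.mul_adjugate, Matrix.mul_smul, mul_one] at h'
    have h'' := smul_right_injective M2 hW h'
    have h''' := congrArg (fun X => mat (δ j)⁻¹ * X) h''
    simp only [← mul_assoc, ← mat_mul, inv_mul_cancel, mat_one, one_mul] at h'''
    exact h'''
  conv_rhs => rw [← Equiv.sum_comp e, Finset.sum_congr rfl (fun j _ => by rw [(key j).2])]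
  simp only [ofMul_mul, map_add, ofMul_inv, map_neg, Finset.sum_add_distrib, Finset.sum_neg_distrib]
  rw [show ∑ j, φ (Additive.ofMul (δ (G.next γ j))) = ∑ j, φ (Additive.ofMul (δ j)) from
    Equiv.sum_comp (G.perm γ) (fun j => φ (Additive.ofMul (δ j)))]
  abel

end HeckeFamily

end FLTAgent.PeriodHecke
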