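import Mathlib
import Fermat.Prelude.Def_ModularCurve_PeriodHomPair
import Fermat.Agent.PeriodHecke.Basic

/-!
The standard families of matrices for the Hecke operators of prime index on `Γ₀(N)`, their
conjugates under the Fricke involution, and compatibility with the two involutions.
-/

set_option autoImplicit false

noncomputable section

open scoped MatrixGroups
open CongruenceSubgroup

namespace FLTAgent.PeriodHecke

local notation "M2" => Matrix (Fin 2) (Fin 2) ℤ

variable (N p : ℕ)

theorem dvd_lower_left (γ : Gamma0 N) : (N : ℤ) ∣ mat γ 1 0 :=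
  (ZMod.intCast_zmod_eq_zero_iff_dvd _ _).mp (Gamma0_mem.mp γ.2)

/-- An element of `Γ₀(N)` from its entries. -/
def gamma0Mk (a b c d : ℤ) (hdet : a * d - b * c = 1) (hc : (N : ℤ) ∣ c) : Gamma0 N :=
  ⟨⟨!![a, b; c, d], by rw [Matrix.det_fin_two_of]; exact hdet⟩,
    Gamma0_mem.mpr ((ZMod.intCast_zmod_eq_zero_iff_dvd _ _).mpr hc)⟩

@[simp] theorem mat_gamma0Mk (a b c d : ℤ) (hdet : a * d - b * c = 1) (hc : (N : ℤ) ∣ c) :
    mat (gamma0Mk N a b c d hdet hc) = !![a, b; c, d] := rfl

/-- Index set of the Hecke operator of index `p`: `none` stands for `diag(p, 1)`, present only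
when `p` does not divide `N`. -/
def HeckeIdx : Type := {x : Option (ZMod p) // x = none → ¬ p ∣ N}

instance [NeZero p] : Fintype (HeckeIdx N p) := by
  classical
  exact inferInstanceAs (Fintype {x : Option (ZMod p) // x = none → ¬ p ∣ N})

/-- The standard representatives. -/
def heckeRep : HeckeIdx N p → M2
  | ⟨none, _⟩ => !![(p : ℤ), 0; 0, 1]
  | ⟨some j, _⟩ => !![1, (j.val : ℤ); 0, (p : ℤ)]

/-- The index of a residue. -/
def idxSome (j : ZMod p) : HeckeIdx N p := ⟨some j, fun h => by simp at h⟩

theorem heckeRep_idxSome (j : ZMod p) :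
    heckeRep N p (idxSome N p j) = !![1, (j.val : ℤ); 0, (p : ℤ)] := rfl

theorem HeckeIdx.cases (i : HeckeIdx N p) :
    (∃ h, i = ⟨none, h⟩) ∨ ∃ j, i = idxSome N p j := by
  obtain ⟨_ | j, h⟩ := i
  · exact Or.inl ⟨h, rfl⟩
  · exact Or.inr ⟨j, rfl⟩

/-- Negation of the index. -/
def negIdx : HeckeIdx N p ≃ HeckeIdx N p where
  toFun i := ⟨i.1.map Neg.neg, fun h => i.2 (by simpa using h)⟩
  invFun i := ⟨i.1.map Neg.neg, fun h => i.2 (by simpa using h)⟩
  left_inv i := Subtype.ext (by simp [Option.map_map])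
  right_inv i := Subtype.ext (by simp [Option.map_map])

theorem negIdx_idxSome (j : ZMod p) : negIdx N p (idxSome N p j) = idxSome N p (-j) := rfl

theorem negIdx_none (h : (none : Option (ZMod p)) = none → ¬ p ∣ N) :
    negIdx N p ⟨none, h⟩ = ⟨none, h⟩ := rfl

variable [Fact p.Prime]

theorem not_dvd_of_coe_eq_zero {a : ℤ} {p : ℕ} (h : (a : ZMod p) = 0) : (p : ℤ) ∣ a :=
  (ZMod.intCast_zmod_eq_zero_iff_dvd _ _).mp h

/-- The standard family of the Hecke operator of prime index `p` (`T_p`, or `U_p` if `p ∣ N`). -/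
def heckeFam : HeckeFamily (Gamma0 N) (HeckeIdx N p) where
  α := heckeRep N p
  det_ne i := by
    rcases HeckeIdx.cases N p i with ⟨h, rfl⟩ | ⟨j, rfl⟩ <;>
      simp [heckeRep, idxSome, Matrix.det_fin_two_of, (Fact.out : p.Prime).ne_zero]
  exists_rel γ i := by
    classical
    have hpp : p.Prime := Fact.out
    have hp' : Prime (p : ℤ) := Nat.prime_iff_prime_int.mp hpp
    obtain ⟨c', hc'⟩ := dvd_lower_left N γ
    set a := mat γ 0 0 with ha
    set b := mat γ 0 1 with hb
    set c := mat γ 1 0 with hc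
    set d := mat γ 1 1 with hd
    have hγ : mat γ = !![a, b; c, d] := Matrix.eta_fin_two (mat γ)
    have hdet : a * d - b * c = 1 := by
      have := mat_det γ
      rwa [hγ, Matrix.det_fin_two_of] at this
    rcases HeckeIdx.cases N p i with ⟨hnone, rfl⟩ | ⟨j, rfl⟩
    · have hpN := hnone rfl
      by_cases hcp : (c : ZMod p) = 0
      · -- diag to diag
        obtain ⟨e, he⟩ := not_dvd_of_coe_eq_zero hcp
        have hNe : (N : ℤ) ∣ e := by
          have hcop : IsCoprime (N : ℤ) (p : ℤ) :=
            Int.isCoprime_iff_nat_coprime.mpr (by simpa using ((hpp.coprime_iff_not_dvd).mpr hpN).symm)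
          exact hcop.dvd_of_dvd_mul_left ⟨c', he ▸ hc'⟩
        refine ⟨⟨none, fun _ => hpN⟩, gamma0Mk N a (p * b) e d
          (by linear_combination hdet + b * he) hNe, ?_⟩
        rw [mat_gamma0Mk, hγ]
        simp only [heckeRep]
        rw [he]
        ext i j
        fin_cases i <;> fin_cases j <;> simp [Matrix.mul_apply, Fin.sum_univ_two] <;> ring
      · -- diag to unipotent
        set j' : ZMod p := (d : ZMod p) / (c : ZMod p)
        obtain ⟨e, he⟩ : (p : ℤ) ∣ d - c * j'.val := by
          refine not_dvd_of_coe_eq_zero ?_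
          push_cast
          rw [ZMod.natCast_zmod_val]
          simp only [j']
          field_simp
          ring
        refine ⟨idxSome N p j', gamma0Mk N (p * a) (b - a * j'.val) c e
          (by linear_combination hdet - a * he) ⟨c', hc'⟩, ?_⟩
        rw [mat_gamma0Mk, hγ, heckeRep_idxSome, show d = c * j'.val + p * e by linear_combination he]
        simp only [heckeRep]
        ext i j
        fin_cases i <;> fin_cases j <;> simp [Matrix.mul_apply, Fin.sum_univ_two] <;> ring
    · set x : ℤ := a + j.val * c with hx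
      by_cases hxp : (x : ZMod p) = 0
      · -- unipotent to diag
        have hpN : ¬ p ∣ N := by
          intro hdvd
          have hc0 : (p : ℤ) ∣ c := (Int.natCast_dvd_natCast.mpr hdvd).trans ⟨c', hc'⟩
          have ha0 : (p : ℤ) ∣ a := by
            have h := dvd_sub (not_dvd_of_coe_eq_zero hxp) (dvd_mul_of_dvd_right hc0 (j.val : ℤ))
            rwa [hx, add_sub_cancel_right] at h
          exact hp'.not_dvd_one (hdet ▸ dvd_sub (dvd_mul_of_dvd_left ha0 d) (dvd_mul_of_dvd_right hc0 b))
        obtain ⟨e, he⟩ := not_dvd_of_coe_eq_zero hxp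
        refine ⟨⟨none, fun _ => hpN⟩, gamma0Mk N e (b + j.val * d) c (p * d)
          (by linear_combination hdet - d * he) ⟨c', hc'⟩, ?_⟩
        rw [mat_gamma0Mk, hγ, heckeRep_idxSome]
        simp only [heckeRep]
        ext i k
        fin_cases i <;> fin_cases k <;> simp [Matrix.mul_apply, Fin.sum_univ_two, -ZMod.natCast_val] <;>
          first | ring1 | linear_combination he
      · set j' : ZMod p := ((b + j.val * d : ℤ) : ZMod p) / (x : ZMod p)
        obtain ⟨e, he⟩ : (p : ℤ) ∣ b + j.val * d - x * j'.val := by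
          refine not_dvd_of_coe_eq_zero ?_
          push_cast
          rw [ZMod.natCast_zmod_val, ZMod.natCast_zmod_val]
          simp only [j']
          push_cast
          rw [ZMod.natCast_zmod_val]
          field_simp
          ring
        refine ⟨idxSome N p j', gamma0Mk N x e (p * c) (d - c * j'.val)
          (by linear_combination hdet + c * he) (dvd_mul_of_dvd_right ⟨c', hc'⟩ _), ?_⟩
        rw [mat_gamma0Mk, hγ, heckeRep_idxSome, heckeRep_idxSome]
        ext i k
        fin_cases i <;> fin_cases k <;> simp [Matrix.mul_apply, Fin.sum_univ_two, -ZMod.natCast_val] <;>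
          first | ring1 | linear_combination he
  inj δ i i' h := by
    have hdet := mat_det δ
    rw [Matrix.eta_fin_two (mat δ)] at h
    rw [Matrix.det_fin_two] at hdet
    have hp : (1 : ℤ) < p := by exact_mod_cast (Fact.out : p.Prime).one_lt
    have h00 := congrFun (congrFun h 0) 0
    have h10 := congrFun (congrFun h 1) 0
    have h01 := congrFun (congrFun h 0) 1
    rcases HeckeIdx.cases N p i with ⟨_, rfl⟩ | ⟨j, rfl⟩ <;>
      rcases HeckeIdx.cases N p i' with ⟨_, rfl⟩ | ⟨j', rfl⟩ <;>
      simp [heckeRep, idxSome, Matrix.mul_apply, Fin.sum_univ_two] at h00 h10 h01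
    · rfl
    · exfalso
      have h0 : (p : ℤ) ∣ 1 := ⟨mat δ 0 0, by linear_combination -h00⟩
      have := Int.le_of_dvd one_pos h0
      omega
    · exfalso
      rw [h00, h10, mul_zero, sub_zero] at hdet
      have h0 : (p : ℤ) ∣ 1 := ⟨mat δ 1 1, hdet.symm⟩
      have := Int.le_of_dvd one_pos h0
      omega
    · rw [h00, one_mul] at h01
      have := congrArg (fun z : ℤ => (z : ZMod p)) h01
      simp at this
      subst this
      rfl

theorem heckeFam_α : (heckeFam N p).α = heckeRep N p := rfl

/-- Conjugation by the Fricke matrix. -/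
def fricke : Gamma0 N →* Gamma0 N where
  toFun γ := gamma0Mk N (mat γ 1 1) (-(mat γ 1 0 / N)) (-((N : ℤ) * mat γ 0 1)) (mat γ 0 0)
    (by
      have hdet := mat_det γ
      rw [Matrix.det_fin_two] at hdet
      linear_combination hdet - mat γ 0 1 * Int.ediv_mul_cancel (dvd_lower_left N γ))
    (dvd_neg.mpr (dvd_mul_right _ _))
  map_one' := by
    apply mat_injective
    ext i j
    fin_cases i <;> fin_cases j <;> simp [mat_one]
  map_mul' γ δ := by
    apply mat_injective
    obtain ⟨c, hc⟩ := dvd_lower_left N γ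
    obtain ⟨e, he⟩ := dvd_lower_left N δ
    rcases eq_or_ne N 0 with rfl | hN
    · simp only [Nat.cast_zero, zero_mul] at hc he
      ext i j
      fin_cases i <;> fin_cases j <;>
        simp [mat_mul, Matrix.mul_apply, Fin.sum_univ_two, hc, he] <;> ring
    · have hN' : (N : ℤ) ≠ 0 := by exact_mod_cast hN
      have hce : mat (γ * δ) 1 0 / N = c * mat δ 0 0 + mat γ 1 1 * e := by
        rw [mat_mul, Matrix.mul_apply, Fin.sum_univ_two, hc, he,
          show (N : ℤ) * c * mat δ 0 0 + mat γ 1 1 * ((N : ℤ) * e) =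
            (c * mat δ 0 0 + mat γ 1 1 * e) * N by ring, Int.mul_ediv_cancel _ hN']
      rw [mat_mul (gamma0Mk ..), mat_gamma0Mk, mat_gamma0Mk, mat_gamma0Mk, hce]
      rw [mat_mul, hc, he, Int.mul_ediv_cancel_left _ hN', Int.mul_ediv_cancel_left _ hN']
      ext i j
      fin_cases i <;> fin_cases j <;> simp [Matrix.mul_apply, Fin.sum_univ_two, hc, he] <;> ring

/-- The Fricke matrix. -/
def frickeMat : M2 := !![0, -1; (N : ℤ), 0]

theorem frickeMat_det : (frickeMat N).det = N := by simp [frickeMat, Matrix.det_fin_two_of]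

theorem fricke_rel (γ : Gamma0 N) : frickeMat N * mat γ = mat (fricke N γ) * frickeMat N := by
  obtain ⟨c, hc⟩ := dvd_lower_left N γ
  have hdiv : (mat γ 1 0 / N) * (N : ℤ) = mat γ 1 0 := Int.ediv_mul_cancel (dvd_lower_left N γ)
  show _ = !![mat γ 1 1, -(mat γ 1 0 / N); -((N : ℤ) * mat γ 0 1), mat γ 0 0] * _
  ext i j
  fin_cases i <;> fin_cases j <;> simp [frickeMat, Matrix.mul_apply, Fin.sum_univ_two] <;>
    first | ring1 | linear_combination hdiv | linear_combination -hdiv

theorem fricke_fricke [NeZero N] (γ : Gamma0 N) : fricke N (fricke N γ) = γ := by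
  apply mat_injective
  have h1 := fricke_rel N (fricke N γ)
  have h2 := fricke_rel N γ
  have hW : frickeMat N * frickeMat N = (-(N : ℤ)) • (1 : M2) := by
    ext i j
    fin_cases i <;> fin_cases j <;> simp [frickeMat, Matrix.mul_apply, Fin.sum_univ_two]
  have h3 : frickeMat N * frickeMat N * mat γ = mat (fricke N (fricke N γ)) * (frickeMat N * frickeMat N) := by
    rw [mul_assoc, h2, ← mul_assoc, h1, mul_assoc]
  rw [hW, Matrix.smul_mul, one_mul, Matrix.mul_smul, mul_one] at h3
  exact (smul_right_injective M2 (by simp [NeZero.ne N]) h3).symm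

/-- The representatives of the adjoint Hecke operator. -/
def heckeRep' : HeckeIdx N p → M2
  | ⟨none, _⟩ => !![1, 0; 0, (p : ℤ)]
  | ⟨some j, _⟩ => !![(p : ℤ), 0; -((N : ℤ) * j.val), 1]

omit [Fact p.Prime] in
theorem frickeMat_heckeRep (i : HeckeIdx N p) :
    frickeMat N * heckeRep N p i = heckeRep' N p i * frickeMat N := by
  rcases HeckeIdx.cases N p i with ⟨_, rfl⟩ | ⟨j, rfl⟩ <;>
    ext a b <;> fin_cases a <;> fin_cases b <;>
      simp [heckeRep, heckeRep', idxSome, frickeMat, Matrix.mul_apply, Fin.sum_univ_two] <;> ring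

variable [NeZero N]

theorem frickeMat_cancel {X Y : M2} (h : X * frickeMat N = Y * frickeMat N) : X = Y := by
  have h' := congrArg (fun Z => Z * Matrix.adjugate (frickeMat N)) h
  simp only [Matrix.mul_assoc, Matrix.mul_adjugate, Matrix.mul_smul, mul_one] at h'
  exact smul_right_injective M2 (by rw [frickeMat_det]; exact_mod_cast NeZero.ne N) h'

/-- The family of the adjoint Hecke operator: the Fricke conjugate of the standard one. -/
def heckeFam' : HeckeFamily (Gamma0 N) (HeckeIdx N p) where
  α := heckeRep' N p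
  det_ne i := by
    rcases HeckeIdx.cases N p i with ⟨h, rfl⟩ | ⟨j, rfl⟩ <;>
      simp [heckeRep', idxSome, Matrix.det_fin_two_of, (Fact.out : p.Prime).ne_zero]
  exists_rel γ i := by
    obtain ⟨j, δ, h⟩ := (heckeFam N p).exists_rel (fricke N γ) i
    refine ⟨j, fricke N δ, frickeMat_cancel N ?_⟩
    rw [heckeFam_α] at h
    calc heckeRep' N p i * mat γ * frickeMat N
        = heckeRep' N p i * (mat (fricke N (fricke N γ)) * frickeMat N) := by
          rw [fricke_fricke, mul_assoc]
      _ = frickeMat N * (heckeRep N p i * mat (fricke N γ)) := by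
          rw [← fricke_rel, ← mul_assoc, ← frickeMat_heckeRep, mul_assoc]
      _ = mat (fricke N δ) * (frickeMat N * heckeRep N p j) := by
          rw [h, ← mul_assoc, fricke_rel, mul_assoc]
      _ = mat (fricke N δ) * heckeRep' N p j * frickeMat N := by
          rw [frickeMat_heckeRep, mul_assoc]
  inj δ i j h := by
    refine (heckeFam N p).inj (fricke N δ) i j ?_
    rw [heckeFam_α]
    have hW : frickeMat N * frickeMat N = (-(N : ℤ)) • (1 : M2) := by
      ext a b
      fin_cases a <;> fin_cases b <;> simp [frickeMat, Matrix.mul_apply, Fin.sum_univ_two]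
    have h1 : frickeMat N * (mat (fricke N δ) * heckeRep N p i) = frickeMat N * heckeRep N p j := by
      rw [← mul_assoc, fricke_rel, fricke_fricke, mul_assoc, frickeMat_heckeRep, ← mul_assoc, h,
        ← frickeMat_heckeRep]
    have h2 := congrArg (fun Z => frickeMat N * Z) h1
    simp only [← mul_assoc, hW, Matrix.smul_mul, one_mul] at h2
    exact smul_right_injective M2 (by simp [NeZero.ne N]) h2

variable {A : Type*} [AddCommGroup A]

/-- Twisting by the Fricke involution exchanges the two operators. -/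
theorem hecke_fricke (φ : Additive (Gamma0 N) →+ A) :
    (heckeFam N p).hecke (φ.comp (fricke N).toAdditive) =
      ((heckeFam' N p).hecke φ).comp (fricke N).toAdditive :=
  (heckeFam' N p).hecke_intertwine (heckeFam N p) (fricke N) (frickeMat N)
    (by rw [frickeMat_det]; exact_mod_cast NeZero.ne N) (fricke_rel N) (Equiv.refl _) (fun _ => 1)
    (fun j => by rw [mat_one, one_mul]; exact frickeMat_heckeRep N p j) φ

omit [NeZero N] in
theorem fricke_mem_Hpar {φ : Additive (Gamma0 N) →+ A} (hφ : φ ∈ Hpar (Gamma0 N) A) :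
    φ.comp (fricke N).toAdditive ∈ Hpar (Gamma0 N) A := by
  intro γ hγ
  refine hφ _ ?_
  show (!![mat γ 1 1, -(mat γ 1 0 / N); -((N : ℤ) * mat γ 0 1), mat γ 0 0]).trace ^ 2 ≤ 4
  rw [Matrix.trace_fin_two_of, add_comm, ← Matrix.trace_fin_two]
  exact hγ

omit [NeZero N] in
theorem jConj_rel (γ : Gamma0 N) :
    !![(1 : ℤ), 0; 0, -1] * mat γ =
      mat (ModularCurve.Period.jConjGamma0 N γ) * !![(1 : ℤ), 0; 0, -1] := by
  show _ = ModularCurve.Period.jConjMat (mat γ) * _
  ext i j
  fin_cases i <;> fin_cases j <;> simp [Matrix.mul_apply, Fin.sum_univ_two]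

omit [NeZero N] in
/-- The Hecke operators commute with complex conjugation. -/
theorem hecke_jConj (φ : Additive (Gamma0 N) →+ A) :
    (heckeFam N p).hecke (φ.comp (ModularCurve.Period.jConjGamma0 N).toAdditive) =
      ((heckeFam N p).hecke φ).comp (ModularCurve.Period.jConjGamma0 N).toAdditive := by
  classical
  let e : HeckeIdx N p ≃ HeckeIdx N p := negIdx N p
  let δ : HeckeIdx N p → Gamma0 N := fun i =>
    match i with
    | ⟨none, _⟩ => 1
    | ⟨some j, _⟩ => gamma0Mk N 1 (-(((j.val : ℤ) + ((-j).val : ℤ)) / p)) 0 1 (by ring) (dvd_zero _)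
  have hδsome : ∀ j : ZMod p, mat (δ (idxSome N p j)) =
      !![1, -(((j.val : ℤ) + ((-j).val : ℤ)) / p); 0, 1] := fun _ => rfl
  have hδnone : ∀ h, mat (δ ⟨none, h⟩) = 1 := fun _ => mat_one
  refine (heckeFam N p).hecke_intertwine (heckeFam N p) _ !![(1 : ℤ), 0; 0, -1]
    (by simp [Matrix.det_fin_two_of]) (jConj_rel N) e δ (fun i => ?_) φ
  rcases HeckeIdx.cases N p i with ⟨h, rfl⟩ | ⟨j, rfl⟩
  · rw [hδnone h, show e ⟨none, h⟩ = ⟨none, h⟩ from rfl, heckeFam_α, one_mul]
    ext a b
    fin_cases a <;> fin_cases b <;>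
      simp [heckeRep, Matrix.mul_apply, Fin.sum_univ_two]
  · have hdvd : (p : ℤ) ∣ (j.val : ℤ) + ((-j).val : ℤ) := by
      refine not_dvd_of_coe_eq_zero ?_
      push_cast
      rw [ZMod.natCast_zmod_val, ZMod.natCast_zmod_val, add_neg_cancel]
    have hdiv := Int.ediv_mul_cancel hdvd
    rw [hδsome, show e (idxSome N p j) = idxSome N p (-j) from rfl, heckeFam_α, heckeRep_idxSome,
      heckeRep_idxSome]
    ext a b
    fin_cases a <;> fin_cases b <;>
      simp [Matrix.mul_apply, Fin.sum_univ_two,
        -ZMod.natCast_val] <;>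
      first | ring1 | linear_combination hdiv | linear_combination -hdiv

end FLTAgent.PeriodHecke
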