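import Mathlib
import Fermat.Prelude.Def_ModularForm_HeckeOperatorForms
import Fermat.Agent.ES.Primitive
import Fermat.Agent.PeriodHecke.Families

/-!
The period map intertwines the Hecke operators on cusp forms with those on homomorphisms.
-/

set_option autoImplicit false

noncomputable section

open scoped MatrixGroups ModularForm
open CongruenceSubgroup UpperHalfPlane Complex Function ModularForm

namespace FLTAgent.PeriodHecke

local notation "M2" => Matrix (Fin 2) (Fin 2) ℤ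

variable (N p : ℕ) [NeZero N] [Fact p.Prime]

/-- The standard representatives as real matrices. -/
def glRep : HeckeIdx N p → GL (Fin 2) ℝ
  | ⟨none, _⟩ => heckeDiagMatrix p
  | ⟨some j, _⟩ => heckeMatrix p j.val

omit [NeZero N] in
theorem val_glRep (i : HeckeIdx N p) :
    ((glRep N p i : GL (Fin 2) ℝ) : Matrix (Fin 2) (Fin 2) ℝ) =
      (heckeRep N p i).map (Int.cast : ℤ → ℝ) := by
  have hp := (Fact.out : p.Prime).ne_zero
  rcases HeckeIdx.cases N p i with ⟨h, rfl⟩ | ⟨j, rfl⟩ <;>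
    ext a b <;> fin_cases a <;> fin_cases b <;>
    simp [glRep, heckeRep, idxSome, val_heckeMatrix hp, val_heckeDiagMatrix hp]

omit [NeZero N] in
theorem glRep_smul (γ : Gamma0 N) (i : HeckeIdx N p) (z : ℍ) :
    glRep N p i • (γ : SL(2, ℤ)) • z =
      ((heckeFam N p).coc γ i : SL(2, ℤ)) • glRep N p ((heckeFam N p).next γ i) • z := by
  have h := congrArg (fun X : M2 => X.map (Int.cast : ℤ → ℝ)) ((heckeFam N p).rel γ i)
  simp only [heckeFam_α, Matrix.map_mul_intCast, ← val_glRep] at h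
  have hgl : glRep N p i * Matrix.SpecialLinearGroup.mapGL ℝ (γ : SL(2, ℤ)) =
      Matrix.SpecialLinearGroup.mapGL ℝ ((heckeFam N p).coc γ i : SL(2, ℤ)) *
        glRep N p ((heckeFam N p).next γ i) := by
    apply Units.ext
    simpa [mat] using h
  show glRep N p i • Matrix.SpecialLinearGroup.mapGL ℝ (γ : SL(2, ℤ)) • z = Matrix.SpecialLinearGroup.mapGL ℝ ((heckeFam N p).coc γ i : SL(2, ℤ)) • _
  rw [← mul_smul, ← mul_smul]
  exact congrArg (· • z) hgl

omit [NeZero N] in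
theorem hasDerivAt_comp_glRep {F f : ℍ → ℂ}
    (hF : ∀ τ : ℍ, HasDerivAt (F ∘ ofComplex) (f τ) ↑τ) (i : HeckeIdx N p) (τ : ℍ) :
    HasDerivAt ((fun w => F (glRep N p i • w)) ∘ ofComplex) ((f ∣[(2 : ℤ)] glRep N p i) τ) ↑τ := by
  have hp := (Fact.out : p.Prime).ne_zero
  rcases HeckeIdx.cases N p i with ⟨h, rfl⟩ | ⟨j, rfl⟩
  · show HasDerivAt ((fun w => F (heckeDiagMatrix p • w)) ∘ ofComplex)
      ((f ∣[(2 : ℤ)] heckeDiagMatrix p) τ) ↑τ
    rw [slash_heckeDiagMatrix_apply 2 hp, show ((2 : ℤ) - 1) = 1 from rfl, zpow_one]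
    have h2 : HasDerivAt (fun w : ℂ => (p : ℂ) * w) (p : ℂ) ↑τ := by
      simpa using (hasDerivAt_id (↑τ : ℂ)).const_mul (p : ℂ)
    have h := (hF (heckeDiagMatrix p • τ)).comp_of_eq (τ : ℂ) h2 (coe_heckeDiagMatrix_smul hp τ)
    rw [mul_comm]
    refine h.congr_of_eventuallyEq ?_
    filter_upwards [isOpen_upperHalfPlaneSet.mem_nhds τ.im_pos] with w hw
    simp only [comp_apply]
    rw [← coe_mk w hw, ofComplex_apply, ← coe_heckeDiagMatrix_smul hp, ofComplex_apply]
  · show HasDerivAt ((fun w => F (heckeMatrix p j.val • w)) ∘ ofComplex)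
      ((f ∣[(2 : ℤ)] heckeMatrix p j.val) τ) ↑τ
    rw [slash_heckeMatrix_apply 2 hp]
    have h2 : HasDerivAt (fun w : ℂ => (w + (j.val : ℂ)) / p) ((p : ℂ)⁻¹) ↑τ := by
      simpa [div_eq_mul_inv] using ((hasDerivAt_id (↑τ : ℂ)).add_const (j.val : ℂ)).mul_const ((p : ℂ)⁻¹)
    have h := (hF (heckeMatrix p j.val • τ)).comp_of_eq (τ : ℂ) h2 (coe_heckeMatrix_smul hp _ τ)
    rw [mul_comm]
    refine h.congr_of_eventuallyEq ?_
    filter_upwards [isOpen_upperHalfPlaneSet.mem_nhds τ.im_pos] with w hw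
    simp only [comp_apply]
    rw [← coe_mk w hw, ofComplex_apply, ← coe_heckeMatrix_smul hp, ofComplex_apply]

/-- A form whose function is the sum of slashes of `f` has the transformed periods. -/
theorem periodMap_of_sum (f g : CuspForm (Gamma0 N) 2)
    (hg : (⇑g : ℍ → ℂ) = ∑ i, (⇑f : ℍ → ℂ) ∣[(2 : ℤ)] glRep N p i) :
    ModularCurve.periodMap N g = (heckeFam N p).hecke (ModularCurve.periodMap N f) := by
  obtain ⟨F, hF⟩ := ES.exists_hasEquivariantPrimitive f
  obtain ⟨G, hG⟩ := ES.exists_hasEquivariantPrimitive g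
  have hsum : ∀ τ : ℍ,
      HasDerivAt ((fun w => ∑ i, F (glRep N p i • w)) ∘ ofComplex) (g τ) ↑τ := by
    intro τ
    rw [hg, Finset.sum_apply]
    exact HasDerivAt.fun_sum fun i _ => hasDerivAt_comp_glRep N p hF.1 i τ
  obtain ⟨c, hc⟩ := ES.exists_const_of_hasDerivAt hG.1 hsum
  refine AddMonoidHom.ext fun γ => ?_
  obtain ⟨γ, rfl⟩ := Additive.ofMul.surjective γ
  rw [HeckeFamily.hecke_apply, ES.periodMap_apply hG γ UpperHalfPlane.I]
  have h1 := hc ((γ : SL(2, ℤ)) • UpperHalfPlane.I)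
  have h2 := hc UpperHalfPlane.I
  have h3 : ∑ i, (F (glRep N p i • (γ : SL(2, ℤ)) • UpperHalfPlane.I) -
      F (glRep N p ((heckeFam N p).next γ i) • UpperHalfPlane.I)) =
      ∑ i, ModularCurve.periodMap N f (Additive.ofMul ((heckeFam N p).coc γ i)) :=
    Finset.sum_congr rfl fun i _ => by rw [glRep_smul, ES.periodMap_apply hF]
  rw [← h3, Finset.sum_sub_distrib,
    show ∑ i, F (glRep N p ((heckeFam N p).next γ i) • UpperHalfPlane.I) =
      ∑ i, F (glRep N p i • UpperHalfPlane.I) from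
      Equiv.sum_comp ((heckeFam N p).perm γ) (fun i => F (glRep N p i • UpperHalfPlane.I))]
  linear_combination h1 - h2

omit [NeZero N] in
/-- Sums over the index set. -/
theorem sum_idx_of_not_dvd {M : Type*} [AddCommMonoid M] (hpN : ¬ p ∣ N) (g : HeckeIdx N p → M) :
    ∑ i, g i = (∑ j : ZMod p, g (idxSome N p j)) + g ⟨none, fun _ => hpN⟩ := by
  let e : Option (ZMod p) ≃ HeckeIdx N p :=
    ⟨fun x => ⟨x, fun _ => hpN⟩, fun i => i.1, fun _ => rfl, fun _ => rfl⟩
  rw [← Equiv.sum_comp e, Fintype.sum_option, add_comm]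
  rfl

omit [NeZero N] in
theorem sum_idx_of_dvd {M : Type*} [AddCommMonoid M] (hpN : p ∣ N) (g : HeckeIdx N p → M) :
    ∑ i, g i = ∑ j : ZMod p, g (idxSome N p j) := by
  refine (Equiv.sum_comp (Equiv.ofBijective (idxSome N p)
    ⟨fun a b h => Option.some_injective _ (congrArg Subtype.val h), fun i => ?_⟩) g).symm
  rcases HeckeIdx.cases N p i with ⟨h, rfl⟩ | ⟨j, rfl⟩
  · exact absurd hpN (h rfl)
  · exact ⟨j, rfl⟩

omit [NeZero N] in
theorem sum_range_zmod {M : Type*} [AddCommMonoid M] (g : ℕ → M) :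
    ∑ j ∈ Finset.range p, g j = ∑ x : ZMod p, g x.val := by
  obtain ⟨q, rfl⟩ := Nat.exists_eq_succ_of_ne_zero (Fact.out : p.Prime).ne_zero
  exact (Fin.sum_univ_eq_sum_range g _).symm

theorem coe_heckeT_eq_sum (hpN : ¬ p ∣ N) (f : ℍ → ℂ) :
    heckeT 2 p f = ∑ i, f ∣[(2 : ℤ)] glRep N p i := by
  rw [sum_idx_of_not_dvd N p hpN, heckeT_def, sum_range_zmod]
  rfl

theorem coe_heckeU_eq_sum (hpN : p ∣ N) (f : ℍ → ℂ) :
    heckeU 2 p f = ∑ i, f ∣[(2 : ℤ)] glRep N p i := by
  rw [sum_idx_of_dvd N p hpN, heckeU_def, sum_range_zmod]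
  rfl

/-- The Hecke operator of index `p` on cusp forms of weight two. -/
def heckeLin : CuspForm (Gamma0 N) 2 →ₗ[ℂ] CuspForm (Gamma0 N) 2 :=
  if h : p ∣ N then CuspForm.heckeULin 2 h else CuspForm.heckeTLin 2 (Fact.out : p.Prime) h

theorem coe_heckeLin (f : CuspForm (Gamma0 N) 2) :
    (⇑(heckeLin N p f) : ℍ → ℂ) = ∑ i, (⇑f : ℍ → ℂ) ∣[(2 : ℤ)] glRep N p i := by
  unfold heckeLin
  split_ifs with h
  · rw [CuspForm.coe_heckeULin_apply, coe_heckeU_eq_sum N p h]
  · rw [CuspForm.coe_heckeTLin_apply, coe_heckeT_eq_sum N p h]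

/-- The period map is equivariant. -/
theorem periodMap_heckeLin (f : CuspForm (Gamma0 N) 2) :
    ModularCurve.periodMap N (heckeLin N p f) = (heckeFam N p).hecke (ModularCurve.periodMap N f) :=
  periodMap_of_sum N p f _ (coe_heckeLin N p f)

/-- The Eichler–Shimura map is equivariant. -/
theorem periodHomPair_heckeLin (f g : CuspForm (Gamma0 N) 2) :
    ModularCurve.periodHomPair N (heckeLin N p f, heckeLin N p g) =
      (heckeFam N p).hecke (ModularCurve.periodHomPair N (f, g)) := by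
  have hpair : ∀ a b : CuspForm (Gamma0 N) 2, ModularCurve.periodHomPair N (a, b) =
      ModularCurve.periodMap N (a + b) + (ModularCurve.periodMap N (a - b)).comp
        (ModularCurve.Period.jConjGamma0 N).toAdditive := fun a b => by
    refine AddMonoidHom.ext fun γ => ?_
    obtain ⟨γ, rfl⟩ := Additive.ofMul.surjective γ
    exact ES.periodHomPair_apply a b γ
  rw [hpair, hpair, ← map_add, ← map_sub, periodMap_heckeLin, periodMap_heckeLin, map_add, hecke_jConj]

end FLTAgent.PeriodHecke
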