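import Mathlib
import Fermat.Agent.ES.Cocycle
import Fermat.Agent.PeriodHecke.Basic

/-!
Homomorphisms killing parabolic and elliptic elements, described by functions on the cosets:
every such homomorphism, with values in any abelian group, is an integral combination of
homomorphisms with integral values.
-/

set_option autoImplicit false

noncomputable section

open scoped MatrixGroups

namespace FLTAgent.PeriodHecke

local notation "SL2Z" => Matrix.SpecialLinearGroup (Fin 2) ℤ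
local notation "S'" => (ModularGroup.S : SL2Z)
local notation "T'" => (ModularGroup.T : SL2Z)
local notation "R'" => ((ModularGroup.S * ModularGroup.T : SL2Z))

section Perm

variable {X : Type*} [Fintype X] [DecidableEq X] {A : Type*} [AddCommGroup A]

omit [DecidableEq X] in
/-- A function with vanishing orbit sums is a coboundary. -/
theorem exists_coboundary (π : Equiv.Perm X) (u : X → A)
    (h : ∀ x, ∑ k ∈ Finset.range (Function.minimalPeriod π x), u (π^[k] x) = 0) :
    ∃ g : X → A, ∀ x, u x = g x - g (π x) := by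
  classical
  let S : Setoid X := Equiv.Perm.SameCycle.setoid π
  let r : X → X := fun x => (Quotient.mk S x).out
  have hr : ∀ x, π.SameCycle (r x) x := fun x => Quotient.mk_out (s := S) x
  have hper : ∀ x, 0 < Function.minimalPeriod π (r x) := fun x =>
    Function.minimalPeriod_pos_of_mem_periodicPts
      (Function.injective_iff_periodicPts_eq_univ.1 π.injective ▸ Set.mem_univ _)
  have hidx : ∀ x, ∃ k, k < Function.minimalPeriod π (r x) ∧ π^[k] (r x) = x := by
    intro x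
    obtain ⟨k, hk⟩ := (hr x).exists_nat_pow_eq
    refine ⟨k % Function.minimalPeriod π (r x), Nat.mod_lt _ (hper x), ?_⟩
    rw [Function.iterate_mod_minimalPeriod_eq]
    rwa [Equiv.Perm.coe_pow] at hk
  choose K hK hKeq using hidx
  refine ⟨fun x => -∑ i ∈ Finset.range (K x), u (π^[i] (r x)), fun x => ?_⟩
  have hrx : r (π x) = r x :=
    congrArg Quotient.out (Quotient.sound (s := S) (⟨-1, by simp⟩ : π.SameCycle (π x) x))
  have hnext : π^[K x + 1] (r x) = π x := by rw [Function.iterate_succ_apply', hKeq]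
  have hK' := hK (π x)
  have hKeq' := hKeq (π x)
  simp only [hrx] at hK' hKeq' ⊢
  by_cases hlast : K x + 1 < Function.minimalPeriod π (r x)
  · have : K (π x) = K x + 1 :=
      (Function.iterate_eq_iterate_iff_of_lt_minimalPeriod hK' hlast).1 (hKeq'.trans hnext.symm)
    rw [this, Finset.sum_range_succ, hKeq]
    abel
  · have he : K x + 1 = Function.minimalPeriod π (r x) := by have := hK x; omega
    have h0 : K (π x) = 0 := by
      refine (Function.iterate_eq_iterate_iff_of_lt_minimalPeriod hK' (hper x)).1 ?_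
      rw [hKeq', ← hnext, he, Function.iterate_minimalPeriod, Function.iterate_zero_apply]
    have hs := h (r x)
    rw [← he, Finset.sum_range_succ, hKeq] at hs
    rw [h0, Finset.sum_range_zero, neg_zero, sub_zero]
    exact eq_neg_of_add_eq_zero_right hs

/-- Sum over an orbit. -/
theorem sum_cycle (π : Equiv.Perm X) (x : X) (u : X → A)
    [DecidablePred fun y => π.SameCycle x y] :
    ∑ y ∈ Finset.univ.filter (fun y => π.SameCycle x y), u y =
      ∑ k ∈ Finset.range (Function.minimalPeriod π x), u (π^[k] x) := by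
  have hd : 0 < Function.minimalPeriod π x := Function.minimalPeriod_pos_of_mem_periodicPts
    (Function.injective_iff_periodicPts_eq_univ.1 π.injective ▸ Set.mem_univ x)
  rw [← Finset.sum_image (g := fun k => π^[k] x) (f := u)]
  · refine Finset.sum_congr ?_ fun _ _ => rfl
    ext j
    simp only [Finset.mem_filter, Finset.mem_univ, true_and, Finset.mem_image, Finset.mem_range]
    constructor
    · intro hj
      obtain ⟨k, hk⟩ := hj.exists_nat_pow_eq
      refine ⟨k % Function.minimalPeriod π x, Nat.mod_lt _ hd, ?_⟩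
      rw [Function.iterate_mod_minimalPeriod_eq]
      rwa [Equiv.Perm.coe_pow] at hk
    · rintro ⟨k, -, rfl⟩
      exact ⟨k, by rw [zpow_natCast, Equiv.Perm.coe_pow]⟩
  · intro a ha b hb hab
    exact (Function.iterate_eq_iterate_iff_of_lt_minimalPeriod (Finset.mem_range.1 ha)
      (Finset.mem_range.1 hb)).1 hab

end Perm

variable {Γ : Subgroup SL2Z} {A B : Type*} [AddCommGroup A] [AddCommGroup B]

/-- The cocycle of a homomorphism on the cosets. -/
def cosetCoc (φ : Additive Γ →+ A) (g : SL2Z) (x : SL2Z ⧸ Γ) : A :=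
  φ (Additive.ofMul ⟨_, ES.cocycle_mem g x⟩)

theorem cosetCoc_mul (φ : Additive Γ →+ A) (g h : SL2Z) (x : SL2Z ⧸ Γ) :
    cosetCoc φ (g * h) x = cosetCoc φ g (h • x) + cosetCoc φ h x := by
  rw [cosetCoc, cosetCoc, cosetCoc, ← map_add, ← ofMul_mul]
  congr 2
  apply Subtype.ext
  simp only [Subgroup.coe_mul, mul_smul, ← mul_assoc]
  simp [mul_assoc]

theorem cosetCoc_one (φ : Additive Γ →+ A) (x : SL2Z ⧸ Γ) : cosetCoc φ 1 x = 0 := by
  simpa using cosetCoc_mul φ 1 1 x

theorem cosetCoc_inv (φ : Additive Γ →+ A) (g : SL2Z) (x : SL2Z ⧸ Γ) :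
    cosetCoc φ g⁻¹ x = -cosetCoc φ g (g⁻¹ • x) := by
  have h := cosetCoc_mul φ g g⁻¹ x
  rw [mul_inv_cancel, cosetCoc_one] at h
  exact eq_neg_of_add_eq_zero_right h.symm

theorem cosetCoc_pow (φ : Additive Γ →+ A) (g : SL2Z) (n : ℕ) (x : SL2Z ⧸ Γ) :
    cosetCoc φ (g ^ n) x = ∑ i ∈ Finset.range n, cosetCoc φ g (g ^ i • x) := by
  induction n with
  | zero => simp [cosetCoc_one]
  | succ n ih => rw [pow_succ', cosetCoc_mul, ih, Finset.sum_range_succ, add_comm]

/-- The permutation of the cosets given by an element. -/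
abbrev act (Γ : Subgroup SL2Z) (g : SL2Z) : Equiv.Perm (SL2Z ⧸ Γ) := MulAction.toPerm g

theorem iterate_act (g : SL2Z) (k : ℕ) (x : SL2Z ⧸ Γ) : (act Γ g)^[k] x = g ^ k • x := by
  induction k with
  | zero => simp
  | succ k ih => rw [Function.iterate_succ_apply', ih, MulAction.toPerm_apply, smul_smul, ← pow_succ']

theorem orbit_sum_eq_zero {φ : Additive Γ →+ A} (hφ : φ ∈ Hpar Γ A) {g : SL2Z}
    (hg : (g : Matrix (Fin 2) (Fin 2) ℤ).trace ^ 2 ≤ 4) (x : SL2Z ⧸ Γ) :
    ∑ k ∈ Finset.range (Function.minimalPeriod (act Γ g) x), cosetCoc φ g ((act Γ g)^[k] x) = 0 := by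
  simp only [iterate_act]
  rw [← cosetCoc_pow]
  refine hφ _ ?_
  set d := Function.minimalPeriod (act Γ g) x
  have hx : g ^ d • x = x := by rw [← iterate_act]; exact Function.iterate_minimalPeriod
  show ((((g ^ d) • x).out⁻¹ * g ^ d * x.out : SL2Z) : Matrix (Fin 2) (Fin 2) ℤ).trace ^ 2 ≤ 4
  rw [hx, Matrix.SpecialLinearGroup.coe_mul, Matrix.SpecialLinearGroup.coe_mul,
    Matrix.trace_mul_cycle, ← Matrix.SpecialLinearGroup.coe_mul, mul_inv_cancel,
    Matrix.SpecialLinearGroup.coe_one, one_mul, Matrix.SpecialLinearGroup.coe_pow]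
  exact trace_pow_le _ g.2 hg d

theorem S_inv_mul_R : S'⁻¹ * R' = T' := by rw [inv_mul_cancel_left]

/-- The function on cosets attached to a homomorphism. -/
def IsData (φ : Additive Γ →+ A) (h : SL2Z ⧸ Γ → A) : Prop :=
  ∃ f : SL2Z ⧸ Γ → A, (∀ x, cosetCoc φ S' x = f x - f (S' • x)) ∧
    ∀ x, cosetCoc φ R' x = (f + h) x - (f + h) (R' • x)

theorem IsData.add {φ ψ : Additive Γ →+ A} {h k : SL2Z ⧸ Γ → A} (hφ : IsData φ h)
    (hψ : IsData ψ k) : IsData (φ + ψ) (h + k) := by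
  obtain ⟨f, hf, hf'⟩ := hφ
  obtain ⟨g, hg, hg'⟩ := hψ
  refine ⟨f + g, fun x => ?_, fun x => ?_⟩ <;> simp only [cosetCoc, AddMonoidHom.add_apply] at *
  · rw [hf, hg]; simp only [Pi.add_apply]; abel
  · rw [hf', hg']; simp only [Pi.add_apply]; abel

theorem IsData.map (f : A →+ B) {φ : Additive Γ →+ A} {h : SL2Z ⧸ Γ → A} (hφ : IsData φ h) :
    IsData (f.comp φ) (f ∘ h) := by
  obtain ⟨g, hg, hg'⟩ := hφ
  refine ⟨f ∘ g, fun x => ?_, fun x => ?_⟩
  · show f (cosetCoc φ S' x) = _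
    rw [hg, map_sub]; rfl
  · show f (cosetCoc φ R' x) = _
    rw [hg', map_sub, Pi.add_apply, Pi.add_apply, map_add, map_add]; rfl

theorem isData_zero : IsData (0 : Additive Γ →+ A) 0 := ⟨0, by simp [cosetCoc], by simp [cosetCoc]⟩

theorem IsData.sum {ι : Type*} (s : Finset ι) (φ : ι → (Additive Γ →+ A))
    (h : ι → SL2Z ⧸ Γ → A) (H : ∀ i ∈ s, IsData (φ i) (h i)) :
    IsData (∑ i ∈ s, φ i) (∑ i ∈ s, h i) := by
  classical
  induction s using Finset.induction with
  | empty => simpa using isData_zero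
  | insert a s ha ih =>
    rw [Finset.sum_insert ha, Finset.sum_insert ha]
    exact (H a (Finset.mem_insert_self a s)).add (ih fun i hi => H i (Finset.mem_insert_of_mem hi))

theorem IsData.neg {φ : Additive Γ →+ A} {h : SL2Z ⧸ Γ → A} (hφ : IsData φ h) :
    IsData (-φ) (-h) := by
  simpa [AddMonoidHom.ext_iff, Function.comp_def, Pi.neg_def] using hφ.map (-AddMonoidHom.id A)

variable [Γ.FiniteIndex]

theorem exists_data {φ : Additive Γ →+ A} (hφ : φ ∈ Hpar Γ A) : ∃ h, IsData φ h := by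
  classical
  have : Fintype (SL2Z ⧸ Γ) := Fintype.ofFinite _
  obtain ⟨f, hf⟩ := exists_coboundary (act Γ S') _ (orbit_sum_eq_zero hφ (g := S') (by decide))
  obtain ⟨g, hg⟩ := exists_coboundary (act Γ R') _ (orbit_sum_eq_zero hφ (g := R') (by decide))
  exact ⟨g - f, f, hf, fun x => by simpa using hg x⟩

omit [Γ.FiniteIndex] in
theorem coc_eq_of_gen {φ : Additive Γ →+ A} {f : SL2Z ⧸ Γ → A}
    (hS : ∀ x, cosetCoc φ S' x = f x - f (S' • x)) (hR : ∀ x, cosetCoc φ R' x = f x - f (R' • x))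
    (g : SL2Z) (x : SL2Z ⧸ Γ) : cosetCoc φ g x = f x - f (g • x) := by
  have hmul : ∀ a b, (∀ x, cosetCoc φ a x = f x - f (a • x)) →
      (∀ x, cosetCoc φ b x = f x - f (b • x)) → ∀ x, cosetCoc φ (a * b) x = f x - f ((a * b) • x) :=
    fun a b ha hb x => by rw [cosetCoc_mul, ha, hb, mul_smul]; abel
  have hinv : ∀ a, (∀ x, cosetCoc φ a x = f x - f (a • x)) →
      ∀ x, cosetCoc φ a⁻¹ x = f x - f (a⁻¹ • x) :=
    fun a ha x => by rw [cosetCoc_inv, ha, smul_inv_smul]; abel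
  refine ES.smul_generators_induction (P := fun g => ∀ x, cosetCoc φ g x = f x - f (g • x)) hS ?_
    (fun x => by simp [cosetCoc_one]) hmul hinv g x
  rw [← S_inv_mul_R]
  exact hmul _ _ (hinv _ hS) hR

omit [Γ.FiniteIndex] in
theorem smul_base (γ : Γ) :
    (γ : SL2Z) • ((1 : SL2Z) : SL2Z ⧸ Γ) = ((1 : SL2Z) : SL2Z ⧸ Γ) := by
  rw [MulAction.Quotient.smul_coe, QuotientGroup.eq, smul_eq_mul, mul_one, mul_one]
  exact Γ.inv_mem γ.2

omit [Γ.FiniteIndex] in
theorem cosetCoc_base (φ : Additive Γ →+ A) (γ : Γ) :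
    cosetCoc φ (γ : SL2Z) ((1 : SL2Z) : SL2Z ⧸ Γ) = φ (Additive.ofMul γ) := by
  obtain ⟨γ₀, hγ₀⟩ := QuotientGroup.mk_out_eq_mul Γ (1 : SL2Z)
  rw [one_mul] at hγ₀
  have h : (⟨_, ES.cocycle_mem (γ : SL2Z) ((1 : SL2Z) : SL2Z ⧸ Γ)⟩ : Γ) = γ₀⁻¹ * γ * γ₀ :=
    Subtype.ext (by
      show ((γ : SL2Z) • ((1 : SL2Z) : SL2Z ⧸ Γ)).out⁻¹ * (γ : SL2Z) *
        (((1 : SL2Z) : SL2Z ⧸ Γ)).out = _
      rw [smul_base, hγ₀]; simp)
  rw [cosetCoc, h, ofMul_mul, ofMul_mul, map_add, map_add, ofMul_inv, map_neg]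
  abel

omit [Γ.FiniteIndex] in
/-- A homomorphism with data fixed by `S` or by `R` vanishes. -/
theorem eq_zero_of_data {φ : Additive Γ →+ A} {h a b : SL2Z ⧸ Γ → A} (hφ : IsData φ h)
    (hh : h = a + b) (ha : ∀ x, a (S' • x) = a x) (hb : ∀ x, b (R' • x) = b x) : φ = 0 := by
  obtain ⟨f, hf, hg⟩ := hφ
  subst hh
  have key := coc_eq_of_gen (φ := φ) (f := f + a)
    (fun x => by rw [hf]; simp only [Pi.add_apply, ha]; abel)
    (fun x => by rw [hg]; simp only [Pi.add_apply, hb]; abel)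
  refine AddMonoidHom.ext fun γ => ?_
  obtain ⟨γ, rfl⟩ := Additive.ofMul.surjective γ
  rw [← cosetCoc_base φ γ, key, smul_base, sub_self]
  rfl

omit [Γ.FiniteIndex] in
theorem eq_of_data {φ ψ : Additive Γ →+ A} {h : SL2Z ⧸ Γ → A} (hφ : IsData φ h)
    (hψ : IsData ψ h) : φ = ψ := by
  have h0 := eq_zero_of_data (a := 0) (b := 0) (hφ.add hψ.neg) (by abel) (fun _ => rfl) fun _ => rfl
  exact add_neg_eq_zero.mp h0

variable (Γ) in
/-- The orbits of `T` on cosets. -/
abbrev CuspClass : Type := Quotient (Equiv.Perm.SameCycle.setoid (act Γ T'))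

/-- The orbit of a coset. -/
def cuspOf (x : SL2Z ⧸ Γ) : CuspClass Γ := Quotient.mk _ x

omit [Γ.FiniteIndex] in
theorem cuspOf_T (x : SL2Z ⧸ Γ) : cuspOf (T' • x) = cuspOf x :=
  Quotient.sound (⟨-1, by simp⟩ : (act Γ T').SameCycle (T' • x) x)

open scoped Classical in
/-- The boundary map. -/
def bdry (h : SL2Z ⧸ Γ → A) (q : CuspClass Γ) : A :=
  letI := Fintype.ofFinite (SL2Z ⧸ Γ)
  ∑ y ∈ Finset.univ.filter (fun y => cuspOf y = q), (h y - h (S' • y))

theorem bdry_data {φ : Additive Γ →+ A} (hφ : φ ∈ Hpar Γ A) {h : SL2Z ⧸ Γ → A}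
    (hd : IsData φ h) : bdry h = 0 := by
  classical
  let := Fintype.ofFinite (SL2Z ⧸ Γ)
  obtain ⟨f, hf, hg⟩ := hd
  have hRT : ∀ x : SL2Z ⧸ Γ, R' • x = S' • T' • x := fun x => by rw [smul_smul]
  have hT : ∀ x, cosetCoc φ T' x = h x - h (R' • x) + (f x - f (T' • x)) := by
    intro x
    have h1 := cosetCoc_mul φ S'⁻¹ R' x
    rw [S_inv_mul_R, cosetCoc_inv, hf, hg, hRT, smul_inv_smul, inv_smul_smul] at h1
    rw [h1, hRT]
    simp only [Pi.add_apply]
    abel
  funext q
  obtain ⟨x, rfl⟩ := Quotient.exists_rep q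
  have hset : Finset.univ.filter (fun y => cuspOf y = cuspOf x) =
      Finset.univ.filter (fun y => (act Γ T').SameCycle x y) := by
    ext y
    simp only [Finset.mem_filter, Finset.mem_univ, true_and, cuspOf, Quotient.eq]
    exact Equiv.Perm.sameCycle_comm
  have hshift : ∀ u : SL2Z ⧸ Γ → A,
      ∑ y ∈ Finset.univ.filter (fun y => cuspOf y = cuspOf x), u (T' • y) =
        ∑ y ∈ Finset.univ.filter (fun y => cuspOf y = cuspOf x), u y := by
    intro u
    refine Finset.sum_equiv (act Γ T') (fun y => ?_) fun y _ => rfl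
    simp [cuspOf_T]
  have h0 := orbit_sum_eq_zero hφ (g := T') (by decide) x
  rw [← sum_cycle (act Γ T') x (cosetCoc φ T'), ← hset] at h0
  simp only [hT, hRT, Finset.sum_add_distrib, Finset.sum_sub_distrib,
    hshift (fun y => h (S' • y)), hshift f, sub_self, add_zero] at h0
  unfold bdry
  rw [show (Quotient.mk _ x : CuspClass Γ) = cuspOf x from rfl, Pi.zero_apply, Finset.sum_sub_distrib]
  convert h0

theorem bdry_add (h k : SL2Z ⧸ Γ → A) : bdry (h + k) = bdry h + bdry k := by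
  funext q
  simp only [bdry, Pi.add_apply, ← Finset.sum_add_distrib]
  exact Finset.sum_congr rfl fun y _ => by abel

theorem bdry_map (f : A →+ B) (h : SL2Z ⧸ Γ → A) : bdry (f ∘ h) = f ∘ bdry h := by
  funext q
  simp [bdry]

theorem bdry_sum_mem {ι : Type*} (s : Finset ι) (h : ι → SL2Z ⧸ Γ → A) :
    bdry (∑ i ∈ s, h i) = ∑ i ∈ s, bdry (h i) := by
  classical
  induction s using Finset.induction with
  | empty => funext q; simp [bdry]
  | insert a s ha ih => rw [Finset.sum_insert ha, Finset.sum_insert ha, bdry_add, ih]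

theorem sum_bdry (h : SL2Z ⧸ Γ → A) :
    letI := Fintype.ofFinite (CuspClass Γ)
    ∑ q, bdry h q = 0 := by
  classical
  let := Fintype.ofFinite (SL2Z ⧸ Γ)
  let := Fintype.ofFinite (CuspClass Γ)
  unfold bdry
  rw [Finset.sum_fiberwise Finset.univ cuspOf (fun y => h y - h (S' • y)), Finset.sum_sub_distrib,
    show ∑ y, h (S' • y) = ∑ y, h y from Equiv.sum_comp (act Γ S') h, sub_self]

omit [Γ.FiniteIndex] in
theorem bdry_single [Γ.FiniteIndex] [DecidableEq (SL2Z ⧸ Γ)] [DecidableEq (CuspClass Γ)]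
    (x : SL2Z ⧸ Γ) :
    bdry (Pi.single x (1 : ℤ) : SL2Z ⧸ Γ → ℤ) =
      Pi.single (cuspOf x) 1 - Pi.single (cuspOf (S'⁻¹ • x)) 1 := by
  let := Fintype.ofFinite (SL2Z ⧸ Γ)
  funext q
  have h2 : ∀ y, (Pi.single x (1 : ℤ) : SL2Z ⧸ Γ → ℤ) (S' • y) =
      (Pi.single (S'⁻¹ • x) 1 : SL2Z ⧸ Γ → ℤ) y := fun y => by
    simp [Pi.single_apply, eq_inv_smul_iff]
  simp only [bdry, h2, Pi.sub_apply, Finset.sum_sub_distrib]
  simp [Pi.single_apply, Finset.sum_ite_eq', eq_comm]

/-- Integral differences of two orbits are boundaries. -/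
theorem exists_bdry_eq_diff [DecidableEq (CuspClass Γ)] (q : CuspClass Γ) :
    ∃ k : SL2Z ⧸ Γ → ℤ,
      bdry k = Pi.single q 1 - Pi.single (cuspOf ((1 : SL2Z) : SL2Z ⧸ Γ)) 1 := by
  classical
  let P : SL2Z → Prop := fun g => ∀ x : SL2Z ⧸ Γ, ∃ k : SL2Z ⧸ Γ → ℤ,
    bdry k = Pi.single (cuspOf (g • x)) 1 - Pi.single (cuspOf x) 1
  have hS : P S' := fun x => ⟨Pi.single (S' • x) 1, by rw [bdry_single, inv_smul_smul]⟩
  have hT : P T' := fun x => ⟨0, by rw [cuspOf_T, sub_self]; funext q; simp [bdry]⟩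
  have h1 : P 1 := fun x => ⟨0, by rw [one_smul, sub_self]; funext q; simp [bdry]⟩
  have hmul : ∀ a b, P a → P b → P (a * b) := fun a b ha hb x => by
    obtain ⟨k, hk⟩ := ha (b • x)
    obtain ⟨l, hl⟩ := hb x
    exact ⟨k + l, by rw [bdry_add, hk, hl, mul_smul]; abel⟩
  have hinv : ∀ a, P a → P a⁻¹ := fun a ha x => by
    obtain ⟨k, hk⟩ := ha (a⁻¹ • x)
    refine ⟨-k, ?_⟩
    have h' := bdry_map (-AddMonoidHom.id ℤ) k
    rw [hk, smul_inv_smul] at h'
    refine Eq.trans h' ?_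
    funext q
    simp
  obtain ⟨y, rfl⟩ := Quotient.exists_rep q
  obtain ⟨z, rfl⟩ := QuotientGroup.mk_surjective y
  obtain ⟨k, hk⟩ := ES.smul_generators_induction (P := P) hS hT h1 hmul hinv z
    ((1 : SL2Z) : SL2Z ⧸ Γ)
  rw [MulAction.Quotient.smul_coe, smul_eq_mul, mul_one] at hk
  exact ⟨k, hk⟩

variable (Γ) in
open scoped Classical in
/-- Chosen functions with boundary a difference of two orbits. -/
def diffLift (q : CuspClass Γ) : SL2Z ⧸ Γ → ℤ :=
  (exists_bdry_eq_diff q).choose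

open scoped Classical in
theorem bdry_diffLift (q : CuspClass Γ) :
    bdry (diffLift Γ q) = Pi.single q 1 - Pi.single (cuspOf ((1 : SL2Z) : SL2Z ⧸ Γ)) 1 :=
  (exists_bdry_eq_diff q).choose_spec

variable (Γ) in
open scoped Classical in
/-- A generating family of the integral kernel of the boundary. -/
def basicCycle (x : SL2Z ⧸ Γ) : SL2Z ⧸ Γ → ℤ :=
  letI := Fintype.ofFinite (CuspClass Γ)
  Pi.single x 1 - ∑ q, bdry (Pi.single x (1 : ℤ) : SL2Z ⧸ Γ → ℤ) q • diffLift Γ q

omit [Γ.FiniteIndex] in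
theorem int_hom_apply [Γ.FiniteIndex] (a : A) (k : SL2Z ⧸ Γ → ℤ) (q : CuspClass Γ) :
    bdry (fun y => k y • a) q = bdry k q • a :=
  congrFun (bdry_map ((smulAddHom ℤ A).flip a) k) q

/-- Every function with zero sum on orbits is a boundary. -/
theorem bdry_diff_lift (v : CuspClass Γ → A)
    (hv : letI := Fintype.ofFinite (CuspClass Γ); ∑ q, v q = 0) :
    letI := Fintype.ofFinite (CuspClass Γ)
    bdry (∑ q, fun y => diffLift Γ q y • v q) = v := by
  classical
  let := Fintype.ofFinite (CuspClass Γ)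
  rw [bdry_sum_mem]
  funext r
  rw [Finset.sum_apply]
  simp only [int_hom_apply]
  have hd : ∀ q, bdry (diffLift Γ q) r =
      (Pi.single q (1 : ℤ) : CuspClass Γ → ℤ) r -
        (Pi.single (cuspOf ((1 : SL2Z) : SL2Z ⧸ Γ)) (1 : ℤ) : CuspClass Γ → ℤ) r := by
    intro q
    rw [bdry_diffLift, Pi.sub_apply]
  simp only [hd, sub_smul, Finset.sum_sub_distrib, ← Finset.smul_sum, hv, smul_zero, sub_zero]
  simp [Pi.single_apply]

theorem bdry_basicCycle (x : SL2Z ⧸ Γ) : bdry (basicCycle Γ x) = 0 := by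
  classical
  let := Fintype.ofFinite (CuspClass Γ)
  have h := bdry_diff_lift (bdry (Pi.single x (1 : ℤ) : SL2Z ⧸ Γ → ℤ)) (sum_bdry _)
  have hneg := bdry_map (-AddMonoidHom.id ℤ)
    (∑ q, fun y => diffLift Γ q y • bdry (Pi.single x (1 : ℤ) : SL2Z ⧸ Γ → ℤ) q)
  rw [h] at hneg
  have e : basicCycle Γ x = Pi.single x 1 + (-AddMonoidHom.id ℤ) ∘
      (∑ q, fun y => diffLift Γ q y • bdry (Pi.single x (1 : ℤ) : SL2Z ⧸ Γ → ℤ) q) := by
    funext y
    simp only [basicCycle, Pi.add_apply, Pi.sub_apply, Finset.sum_apply, Function.comp_apply,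
      Pi.smul_apply, smul_eq_mul, AddMonoidHom.neg_apply, AddMonoidHom.id_apply, sub_eq_add_neg]
    congr 2
    exact Finset.sum_congr rfl fun q _ => mul_comm _ _
  rw [e, bdry_add, hneg]
  funext q
  simp

/-- A function without boundary is a combination of the basic cycles. -/
theorem eq_sum_basicCycle {h : SL2Z ⧸ Γ → A} (hh : bdry h = 0) :
    letI := Fintype.ofFinite (SL2Z ⧸ Γ)
    h = ∑ x, fun y => basicCycle Γ x y • h x := by
  classical
  let := Fintype.ofFinite (SL2Z ⧸ Γ)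
  let := Fintype.ofFinite (CuspClass Γ)
  funext y
  have hb : ∀ q, ∑ x, bdry (Pi.single x (1 : ℤ) : SL2Z ⧸ Γ → ℤ) q • h x = 0 := by
    intro q
    have hsum : h = ∑ x, fun y => (Pi.single x (1 : ℤ) : SL2Z ⧸ Γ → ℤ) y • h x := by
      funext y
      simp [Finset.sum_apply, Pi.single_apply]
    have h1 := congrFun (congrArg bdry hsum) q
    rw [hh, bdry_sum_mem, Finset.sum_apply] at h1
    simp only [int_hom_apply] at h1
    exact h1.symm
  simp only [Finset.sum_apply, basicCycle, Pi.sub_apply, Pi.smul_apply, smul_eq_mul, sub_smul,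
    Finset.sum_sub_distrib, Finset.sum_smul]
  rw [Finset.sum_comm (s := Finset.univ) (t := Finset.univ)
    (f := fun x q => (bdry (Pi.single x (1 : ℤ) : SL2Z ⧸ Γ → ℤ) q * diffLift Γ q y) • h x)]
  simp only [mul_comm _ (diffLift Γ _ y), mul_smul, ← Finset.smul_sum, hb, smul_zero,
    Finset.sum_const_zero, sub_zero]
  simp [Pi.single_apply]

end FLTAgent.PeriodHecke
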