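import Mathlib
import Fermat.Agent.ES.Separation
import Fermat.Agent.ES.Dimension
import Fermat.Agent.ES.Primitive
import Fermat.Agent.PeriodHecke.Cosets

/-!
The lattice of homomorphisms with integral values and the description of all homomorphisms by
its dual.
-/

set_option autoImplicit false

noncomputable section

open scoped MatrixGroups
open CongruenceSubgroup

namespace FLTAgent.PeriodHecke

local notation "SL2Z" => Matrix.SpecialLinearGroup (Fin 2) ℤ
local notation "S'" => (ModularGroup.S : SL2Z)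
local notation "T'" => (ModularGroup.T : SL2Z)
local notation "R'" => ((ModularGroup.S * ModularGroup.T : SL2Z))

section General

variable {Γ : Subgroup SL2Z} {A : Type*} [AddCommGroup A]

/-- For torsion-free values elliptic elements are killed automatically. -/
theorem mem_Hpar_iff_parabolic [IsAddTorsionFree A] {φ : Additive Γ →+ A} :
    φ ∈ Hpar Γ A ↔ ModularCurve.Period.IsParabolicHom Γ φ := by
  refine ⟨fun h γ hγ => h γ hγ.le, fun h γ hγ => ?_⟩
  rcases hγ.lt_or_eq with hlt | heq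
  · have h1 : γ ^ 12 = 1 := mat_injective <| by
      rw [mat_one, ← pow_twelve_eq_one _ (mat_det γ) hlt]
      simp [mat]
    have h2 : (12 : ℕ) • φ (Additive.ofMul γ) = 0 := by
      rw [← map_nsmul, ← ofMul_pow, h1, ofMul_one, map_zero]
    exact (smul_eq_zero.1 h2).resolve_left (by norm_num)
  · exact h γ heq

/-- Multiples of homomorphisms with integral values. -/
def scaleHom (φ : Additive Γ →+ ℤ) (a : A) : Additive Γ →+ A :=
  ((smulAddHom ℤ A).flip a).comp φ

@[simp] theorem scaleHom_apply (φ : Additive Γ →+ ℤ) (a : A) (γ : Additive Γ) :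
    scaleHom φ a γ = φ γ • a := rfl

theorem isData_scaleHom {φ : Additive Γ →+ ℤ} {h : SL2Z ⧸ Γ → ℤ} (hd : IsData φ h) (a : A) :
    IsData (scaleHom φ a) (fun x => h x • a) := hd.map ((smulAddHom ℤ A).flip a)

end General

/-- A set of functionals detecting zero and divisibility spans the dual. -/
theorem span_eq_top_of_pure {M : Type*} [AddCommGroup M] [Module.Free ℤ M] [Module.Finite ℤ M]
    (S : Set (Module.Dual ℤ M)) (h0 : ∀ φ : M, (∀ w ∈ S, w φ = 0) → φ = 0)
    (hd : ∀ d : ℤ, d ≠ 0 → ∀ φ : M, (∀ w ∈ S, d ∣ w φ) → ∃ ψ, φ = d • ψ) :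
    Submodule.span ℤ S = ⊤ := by
  classical
  set L := Submodule.span ℤ S
  by_contra hL
  let b := Module.Free.chooseBasis ℤ (Module.Dual ℤ M)
  obtain ⟨n, snf⟩ := Submodule.smithNormalForm b L
  have hval : ∀ c : Module.Dual ℤ (Module.Dual ℤ M), ∃ φ : M, ∀ w, c w = w φ := fun c =>
    ⟨(Module.evalEquiv ℤ M).symm c, fun w => (by simp)⟩
  by_cases hsurj : Function.Surjective snf.f
  · have hunit : ∀ i, IsUnit (snf.a i) := by
      intro i
      obtain ⟨φ, hφ⟩ := hval (snf.bM.coord (snf.f i))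
      have hone : (1 : ℤ) = snf.bM (snf.f i) φ := by rw [← hφ]; simp
      have hdvd : ∀ w ∈ S, snf.a i ∣ w φ := by
        intro w hw
        have hm : w ∈ L := Submodule.subset_span hw
        rw [← hφ, Module.Basis.coord_apply,
          snf.repr_apply_embedding_eq_repr_smul (m := ⟨w, hm⟩) (i := i)]
        exact ⟨_, by rw [map_smul]; rfl⟩
      by_cases ha : snf.a i = 0
      · have hφ0 : φ = 0 := h0 φ fun w hw => by simpa [ha] using hdvd w hw
        rw [hφ0, map_zero] at hone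
        exact absurd hone one_ne_zero
      obtain ⟨ψ, rfl⟩ := hd _ ha φ hdvd
      rw [map_zsmul, smul_eq_mul] at hone
      exact IsUnit.of_mul_eq_one _ hone.symm
    refine hL (eq_top_iff.2 ?_)
    rw [← snf.bM.span_eq, Submodule.span_le]
    rintro _ ⟨j, rfl⟩
    obtain ⟨i, rfl⟩ := hsurj j
    obtain ⟨u, hu⟩ := (hunit i).exists_left_inv
    have : snf.bM (snf.f i) = u • (snf.bN i : Module.Dual ℤ M) := by
      rw [snf.snf, smul_smul, hu, one_smul]
    rw [this]
    exact L.smul_mem _ (snf.bN i).2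
  · obtain ⟨j, hj⟩ : ∃ j, j ∉ Set.range snf.f := by
      simpa [Function.Surjective] using hsurj
    obtain ⟨φ, hφ⟩ := hval (snf.bM.coord j)
    have hφ0 : φ = 0 := h0 φ fun w hw => by
      rw [← hφ, Module.Basis.coord_apply]
      exact snf.repr_eq_zero_of_notMem_range (m := ⟨w, Submodule.subset_span hw⟩) hj
    have := hφ (snf.bM j)
    rw [hφ0, map_zero, Module.Basis.coord_apply, Module.Basis.repr_self,
      Finsupp.single_eq_same] at this
    exact one_ne_zero this

variable (N : ℕ) [NeZero N]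

local notation "Γ₀" => Gamma0 N

theorem dim_ge : Nat.card (SL2Z ⧸ Γ₀) + 2 ≤
    Module.finrank ℂ (ModularCurve.Period.parabolicHoms ℂ Γ₀ ℂ) +
      Module.finrank ℂ (ES.fixedFun Γ₀ S') + Module.finrank ℂ (ES.fixedFun Γ₀ R') +
      Module.finrank ℂ (ES.fixedFun Γ₀ T') := by
  have hneg := ES.Gamma0_neg_one_mem (N := N)
  obtain ⟨hfin, -⟩ := ES.finrank_parabolicHoms_add_le hneg
  obtain ⟨hfinS, hlow⟩ := ES.finrank_cuspForm_ge hneg (ES.exists_span_eq_top N)
  have hinj := Submodule.finrank_mono (ES.range_periodHomPair_le (N := N))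
  rw [LinearMap.finrank_range_of_inj (ES.periodHomPair_injective (N := N)), Module.finrank_prod]
    at hinj
  omega

theorem bdry_smul {Γ : Subgroup SL2Z} [Γ.FiniteIndex] (c : ℂ) (h : SL2Z ⧸ Γ → ℂ) :
    bdry (c • h) = c • bdry h := bdry_map (AddMonoidHom.mulLeft c) h

/-- The boundary as a linear map. -/
def bdryLin (Γ : Subgroup SL2Z) [Γ.FiniteIndex] : (SL2Z ⧸ Γ → ℂ) →ₗ[ℂ] (CuspClass Γ → ℂ) where
  toFun := bdry
  map_add' := bdry_add
  map_smul' := bdry_smul

/-- Every function without boundary comes from a homomorphism, over the complex numbers. -/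
theorem exists_hom_complex {h : SL2Z ⧸ Γ₀ → ℂ} (hh : bdry h = 0) :
    ∃ φ ∈ Hpar Γ₀ ℂ, IsData φ h := by
  classical
  let := Fintype.ofFinite (SL2Z ⧸ Γ₀)
  let := Fintype.ofFinite (CuspClass Γ₀)
  let P : Submodule ℂ ((Additive Γ₀ →+ ℂ) × (SL2Z ⧸ Γ₀ → ℂ)) :=
    { carrier := {p | p.1 ∈ Hpar Γ₀ ℂ ∧ IsData p.1 p.2}
      zero_mem' := ⟨zero_mem _, isData_zero⟩
      add_mem' := fun hp hq => ⟨add_mem hp.1 hq.1, hp.2.add hq.2⟩
      smul_mem' := fun c p hp => ⟨comp_mem_Hpar (AddMonoidHom.mulLeft c) hp.1,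
        hp.2.map (AddMonoidHom.mulLeft c)⟩ }
  obtain ⟨hfin, -⟩ := ES.finrank_parabolicHoms_add_le (ES.Gamma0_neg_one_mem (N := N))
  let π : P →ₗ[ℂ] ModularCurve.Period.parabolicHoms ℂ Γ₀ ℂ :=
    { toFun := fun p => ⟨p.1.1, mem_Hpar_iff_parabolic.1 p.2.1⟩
      map_add' := fun _ _ => rfl
      map_smul' := fun _ _ => rfl }
  let σ : P →ₗ[ℂ] (SL2Z ⧸ Γ₀ → ℂ) := (LinearMap.snd ℂ _ _).comp P.subtype
  have hσ : Function.Injective σ := by
    rintro ⟨⟨φ, a⟩, hp⟩ ⟨⟨ψ, b⟩, hq⟩ (hab : a = b)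
    subst hab
    obtain rfl := eq_of_data hp.2 hq.2
    rfl
  have hπ : Function.Surjective π := by
    rintro ⟨φ, hφ⟩
    obtain ⟨a, ha⟩ := exists_data (mem_Hpar_iff_parabolic.2 hφ)
    exact ⟨⟨(φ, a), mem_Hpar_iff_parabolic.2 hφ, ha⟩, rfl⟩
  have hfinP : FiniteDimensional ℂ P := FiniteDimensional.of_injective σ hσ
  set U := ES.fixedFun Γ₀ S'
  set V := ES.fixedFun Γ₀ R'
  let ι : ↥(U ⊔ V) →ₗ[ℂ] LinearMap.ker π :=
    { toFun := fun v => ⟨⟨(0, v.1), zero_mem _, by
          obtain ⟨a, ha, b, hb, hab⟩ := Submodule.mem_sup.1 v.2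
          refine ⟨-a, fun x => ?_, fun x => ?_⟩
          · simp [cosetCoc, (ES.mem_fixedFun Γ₀).1 ha x]
          · rw [show (-a + v.1) = b by rw [← hab]; abel]
            simp [cosetCoc, (ES.mem_fixedFun Γ₀).1 hb x]⟩, LinearMap.mem_ker.2 rfl⟩
      map_add' := fun a b => Subtype.ext (Subtype.ext (by simp))
      map_smul' := fun c a => Subtype.ext (Subtype.ext (by simp)) }
  have hι : Function.Injective ι := fun a b h => Subtype.ext <|
    congrArg (fun p : LinearMap.ker π => p.1.1.2) h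
  have h1 := LinearMap.finrank_le_finrank_of_injective hι
  have h2 := π.finrank_range_add_finrank_ker
  rw [LinearMap.range_eq_top.2 hπ, finrank_top] at h2
  have h3 := Submodule.finrank_sup_add_finrank_inf_eq U V
  have h4 : Module.finrank ℂ ↥(U ⊓ V) ≤ 1 := by
    have hle : U ⊓ V ≤ Submodule.span ℂ {fun _ : SL2Z ⧸ Γ₀ => (1 : ℂ)} := by
      rintro y ⟨hy1, hy2⟩
      refine Submodule.mem_span_singleton.2 ⟨y ((1 : SL2Z) : SL2Z ⧸ Γ₀), funext fun x => ?_⟩
      have hy1' := (ES.mem_fixedFun Γ₀).1 hy1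
      have hy2' := (ES.mem_fixedFun Γ₀).1 hy2
      have hyT : ∀ x, y (T' • x) = y x := fun x => by
        rw [← hy1' (T' • x), smul_smul]; exact hy2' x
      simp [ES.const_of_invariant hy1' hyT x]
    exact (Submodule.finrank_mono hle).trans
      ((finrank_span_le_card ({fun _ => (1 : ℂ)} : Set (SL2Z ⧸ Γ₀ → ℂ))).trans (by simp))
  have h5 := (bdryLin Γ₀).finrank_range_add_finrank_ker
  rw [Module.finrank_pi, ← Nat.card_eq_fintype_card] at h5
  set q₀ := cuspOf ((1 : SL2Z) : SL2Z ⧸ Γ₀)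
  have h6 : Fintype.card (CuspClass Γ₀) ≤ Module.finrank ℂ (LinearMap.range (bdryLin Γ₀)) + 1 := by
    have htop : (⊤ : Submodule ℂ (CuspClass Γ₀ → ℂ)) ≤
        LinearMap.range (bdryLin Γ₀) ⊔ Submodule.span ℂ {Pi.single q₀ (1 : ℂ)} := by
      intro v _
      have hsum : ∑ q, (v - (∑ q, v q) • Pi.single q₀ (1 : ℂ) : CuspClass Γ₀ → ℂ) q = 0 := by
        simp [Finset.sum_sub_distrib, Pi.single_apply]
      refine Submodule.mem_sup.2 ⟨_, ⟨_, bdry_diff_lift _ hsum⟩, _,
        Submodule.smul_mem _ (∑ q, v q) (Submodule.mem_span_singleton_self _), ?_⟩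
      abel
    have := (Submodule.finrank_mono htop).trans (Submodule.finrank_add_le_finrank_add_finrank _ _)
    rw [finrank_top, Module.finrank_pi, finrank_span_singleton (by simp)] at this
    exact this
  have h7 : Module.finrank ℂ (ES.fixedFun Γ₀ T') ≤ Fintype.card (CuspClass Γ₀) := by
    let L : ES.fixedFun Γ₀ T' →ₗ[ℂ] (CuspClass Γ₀ → ℂ) :=
      { toFun := fun v q => v.1 q.out
        map_add' := fun _ _ => rfl
        map_smul' := fun _ _ => rfl }
    refine (LinearMap.finrank_le_finrank_of_injective (f := L) fun a b hab => Subtype.ext <|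
      funext fun x => ?_).trans_eq (Module.finrank_pi ℂ)
    have hsame : ∀ v ∈ ES.fixedFun Γ₀ T', v (cuspOf x).out = v x := by
      intro v hv
      obtain ⟨k, hk⟩ := (Quotient.exact (Quotient.out_eq (cuspOf x))).exists_nat_pow_eq
      conv_rhs => rw [← hk]
      have hiter : ∀ (j : ℕ) (z : SL2Z ⧸ Γ₀), v ((act Γ₀ T' ^ j) z) = v z := by
        intro j
        induction j with
        | zero => simp
        | succ j ih => intro z; rw [pow_succ', Equiv.Perm.mul_apply, MulAction.toPerm_apply,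
            (ES.mem_fixedFun Γ₀).1 hv, ih]
      rw [hiter]
    rw [← hsame _ a.2, ← hsame _ b.2]
    exact congrFun hab (cuspOf x)
  have hle : LinearMap.range σ ≤ LinearMap.ker (bdryLin Γ₀) := by
    rintro _ ⟨p, rfl⟩
    exact bdry_data p.2.1 p.2.2
  have h8 := Submodule.finrank_mono hle
  rw [LinearMap.finrank_range_of_inj hσ] at h8
  have h9 := dim_ge N
  rw [show ES.fixedFun Γ₀ S' = U from rfl, show ES.fixedFun Γ₀ R' = V from rfl] at h9
  have heq : LinearMap.range σ = LinearMap.ker (bdryLin Γ₀) := by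
    refine Submodule.eq_of_le_of_finrank_le hle ?_
    rw [LinearMap.finrank_range_of_inj hσ]
    omega
  obtain ⟨⟨⟨φ, a⟩, hp⟩, rfl⟩ := heq.ge (show h ∈ LinearMap.ker (bdryLin Γ₀) from hh)
  exact ⟨φ, hp.1, hp.2⟩

/-- Every integral function without boundary comes from an integral homomorphism. -/
theorem exists_hom_int {h : SL2Z ⧸ Γ₀ → ℤ} (hh : bdry h = 0) :
    ∃ φ ∈ Hpar Γ₀ ℤ, IsData φ h := by
  obtain ⟨φ, hφ, f, hf, hg⟩ := exists_hom_complex N (h := Int.castAddHom ℂ ∘ h)
    (by rw [bdry_map, hh]; funext q; simp)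
  let Zc : AddSubgroup ℂ := (Int.castAddHom ℂ).range
  have key : ∀ g : SL2Z, ∀ x, cosetCoc φ g x - (f x - f (g • x)) ∈ Zc := by
    have hS : ∀ x, cosetCoc φ S' x - (f x - f (S' • x)) ∈ Zc := fun x => by
      rw [hf, sub_self]; exact zero_mem _
    have hR : ∀ x, cosetCoc φ R' x - (f x - f (R' • x)) ∈ Zc := fun x => by
      rw [hg]
      refine ⟨h x - h (R' • x), ?_⟩
      simp only [Pi.add_apply, Function.comp_apply, map_sub, Int.coe_castAddHom]
      ring
    have hmul : ∀ a b, (∀ x, cosetCoc φ a x - (f x - f (a • x)) ∈ Zc) →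
        (∀ x, cosetCoc φ b x - (f x - f (b • x)) ∈ Zc) →
        ∀ x, cosetCoc φ (a * b) x - (f x - f ((a * b) • x)) ∈ Zc := fun a b ha hb x => by
      convert add_mem (ha (b • x)) (hb x) using 1
      rw [cosetCoc_mul, mul_smul]; ring
    have hinv : ∀ a, (∀ x, cosetCoc φ a x - (f x - f (a • x)) ∈ Zc) →
        ∀ x, cosetCoc φ a⁻¹ x - (f x - f (a⁻¹ • x)) ∈ Zc := fun a ha x => by
      convert neg_mem (ha (a⁻¹ • x)) using 1
      rw [cosetCoc_inv, smul_inv_smul]; ring
    refine ES.smul_generators_induction (P := fun g => ∀ x, cosetCoc φ g x - (f x - f (g • x)) ∈ Zc)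
      hS ?_ (fun x => by rw [cosetCoc_one, one_smul]; simp) hmul hinv
    rw [← S_inv_mul_R]
    exact hmul _ _ (hinv _ hS) hR
  have hint : ∀ γ : Γ₀, φ (Additive.ofMul γ) ∈ Zc := fun γ => by
    have h1 := key γ ((1 : SL2Z) : SL2Z ⧸ Γ₀)
    rwa [smul_base, sub_self, sub_zero, cosetCoc_base] at h1
  choose ψ hψ using hint
  let ψ' : Additive Γ₀ →+ ℤ :=
    { toFun := fun γ => ψ (Additive.toMul γ)
      map_zero' := Int.cast_injective (α := ℂ) (by
        have := hψ 1
        simpa using this)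
      map_add' := fun a b => Int.cast_injective (α := ℂ) (by
        have h1 := hψ (Additive.toMul a)
        have h2 := hψ (Additive.toMul b)
        have h3 := hψ (Additive.toMul a * Additive.toMul b)
        simp only [Int.coe_castAddHom] at h1 h2 h3
        rw [toMul_add, h3, Int.cast_add, h1, h2, ofMul_mul, map_add]) }
  have hψ' : (Int.castAddHom ℂ).comp ψ' = φ := AddMonoidHom.ext fun γ => hψ _
  refine ⟨ψ', fun γ hγ => Int.cast_injective (α := ℂ) ?_, ?_⟩
  · have := hφ γ hγ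
    rw [← hψ'] at this
    simpa using this
  -- normalise the auxiliary function
  set x₁ : SL2Z ⧸ Γ₀ := ((1 : SL2Z) : SL2Z ⧸ Γ₀)
  have hfint : ∀ x, f x - f x₁ ∈ Zc := by
    intro x
    induction x using QuotientGroup.induction_on with
    | H z =>
      have h1 := key z x₁
      have h2 : cosetCoc φ z x₁ ∈ Zc := by rw [← hψ']; exact ⟨cosetCoc ψ' z x₁, rfl⟩
      have h3 := sub_mem h1 h2
      rw [MulAction.Quotient.smul_coe, smul_eq_mul, mul_one] at h3
      convert h3 using 1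
      ring
  choose f' hf' using hfint
  simp only [Int.coe_castAddHom] at hf'
  refine ⟨f', fun x => Int.cast_injective (α := ℂ) ?_, fun x => Int.cast_injective (α := ℂ) ?_⟩
  · have h1 := hf x
    rw [← hψ'] at h1
    rw [show ((cosetCoc ψ' S' x : ℤ) : ℂ) = f x - f (S' • x) from h1, Int.cast_sub, hf', hf']
    ring
  · have h1 := hg x
    rw [← hψ'] at h1
    rw [show ((cosetCoc ψ' R' x : ℤ) : ℂ) = _ from h1, Int.cast_sub]
    simp only [Pi.add_apply, Function.comp_apply, Int.cast_add, Int.coe_castAddHom, hf']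
    ring

/-- Homomorphisms generating everything. -/
def basicHom (x : SL2Z ⧸ Γ₀) : Hpar Γ₀ ℤ :=
  ⟨(exists_hom_int N (bdry_basicCycle x)).choose,
    (exists_hom_int N (bdry_basicCycle x)).choose_spec.1⟩

theorem isData_basicHom (x : SL2Z ⧸ Γ₀) : IsData (basicHom N x).1 (basicCycle Γ₀ x) :=
  (exists_hom_int N (bdry_basicCycle x)).choose_spec.2

/-- Every homomorphism is a combination of the basic integral ones. -/
theorem exists_coeff {A : Type*} [AddCommGroup A] {φ : Additive Γ₀ →+ A} (hφ : φ ∈ Hpar Γ₀ A) :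
    ∃ a : SL2Z ⧸ Γ₀ → A,
      letI := Fintype.ofFinite (SL2Z ⧸ Γ₀)
      φ = ∑ x, scaleHom (basicHom N x).1 (a x) := by
  let := Fintype.ofFinite (SL2Z ⧸ Γ₀)
  obtain ⟨h, hh⟩ := exists_data hφ
  refine ⟨h, eq_of_data hh ?_⟩
  nth_rewrite 2 [eq_sum_basicCycle (bdry_data hφ hh)]
  exact IsData.sum _ _ _ fun x _ => isData_scaleHom (isData_basicHom N x) _

instance : Module.Finite ℤ (Hpar Γ₀ ℤ) := by
  let := Fintype.ofFinite (SL2Z ⧸ Γ₀)
  refine Module.Finite.of_surjective
    (Fintype.linearCombination ℤ (basicHom N)) fun φ => ?_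
  obtain ⟨a, ha⟩ := exists_coeff N φ.2
  refine ⟨a, Subtype.ext ?_⟩
  rw [ha, Fintype.linearCombination_apply, AddSubgroup.val_finsetSum]
  refine Finset.sum_congr rfl fun x _ => AddMonoidHom.ext fun γ => ?_
  simp [mul_comm]

instance : Module.IsTorsionFree ℤ (Hpar Γ₀ ℤ) :=
  Function.Injective.moduleIsTorsionFree
    (fun φ : Hpar Γ₀ ℤ => fun γ : Γ₀ => φ.1 (Additive.ofMul γ))
    (fun _ _ h => Subtype.ext (AddMonoidHom.ext fun γ => congrFun h (Additive.toMul γ)))
    (fun _ _ => rfl)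

instance : Module.Free ℤ (Hpar Γ₀ ℤ) := Module.free_of_finite_type_torsion_free'

/-- Evaluation at an element, as an element of the dual of the lattice. -/
def evalDual : Additive Γ₀ →+ Module.Dual ℤ (Hpar Γ₀ ℤ) where
  toFun γ :=
    { toFun := fun φ => φ.1 γ
      map_add' := fun _ _ => rfl
      map_smul' := fun _ _ => rfl }
  map_zero' := LinearMap.ext fun φ => φ.1.map_zero
  map_add' a b := LinearMap.ext fun φ => φ.1.map_add a b

omit [NeZero N] in
@[simp] theorem evalDual_apply (γ : Additive Γ₀) (φ : Hpar Γ₀ ℤ) :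
    evalDual N γ φ = φ.1 γ := rfl

theorem span_evalDual : Submodule.span ℤ (Set.range (evalDual N)) = ⊤ := by
  refine span_eq_top_of_pure _ (fun φ h => Subtype.ext (AddMonoidHom.ext fun γ => h _ ⟨γ, rfl⟩))
    fun d hd φ h => ?_
  have hdiv : ∀ γ : Additive Γ₀, d ∣ φ.1 γ := fun γ => h _ ⟨γ, rfl⟩
  choose ψ hψ using hdiv
  let ψ' : Additive Γ₀ →+ ℤ :=
    { toFun := ψ
      map_zero' := mul_left_cancel₀ hd (by rw [← hψ, map_zero, mul_zero])
      map_add' := fun x y => mul_left_cancel₀ hd (by rw [← hψ, map_add, hψ, hψ, mul_add]) }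
  have hψ' : ψ' ∈ Hpar Γ₀ ℤ := fun γ hγ => mul_left_cancel₀ hd (by
    show d * ψ _ = _
    rw [← hψ, φ.2 γ hγ, mul_zero])
  exact ⟨⟨ψ', hψ'⟩, Subtype.ext (AddMonoidHom.ext fun γ => hψ γ)⟩

/-- The homomorphism given by a map out of the dual lattice. -/
def ofDual (A : Type*) [AddCommGroup A] :
    (Module.Dual ℤ (Hpar Γ₀ ℤ) →ₗ[ℤ] A) →+ Hpar Γ₀ A where
  toFun l := ⟨l.toAddMonoidHom.comp (evalDual N), fun γ hγ => by
    have h : evalDual N (Additive.ofMul γ) = 0 := LinearMap.ext fun φ => φ.2 γ hγ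
    show l (evalDual N (Additive.ofMul γ)) = 0
    rw [h]
    exact l.map_zero⟩
  map_zero' := rfl
  map_add' _ _ := rfl

omit [NeZero N] in
theorem ofDual_apply {A : Type*} [AddCommGroup A]
    (l : Module.Dual ℤ (Hpar Γ₀ ℤ) →ₗ[ℤ] A) (γ : Additive Γ₀) :
    (ofDual N A l).1 γ = l (evalDual N γ) := rfl

theorem ofDual_injective (A : Type*) [AddCommGroup A] : Function.Injective (ofDual N A) :=
  fun l m h => LinearMap.ext_on_range (span_evalDual N) fun γ => by
    rw [← ofDual_apply, ← ofDual_apply, h]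

/-- Evaluation at the basic homomorphisms. -/
def basicEval : Module.Dual ℤ (Hpar Γ₀ ℤ) →ₗ[ℤ] (SL2Z ⧸ Γ₀ → ℤ) where
  toFun w x := w (basicHom N x)
  map_add' _ _ := rfl
  map_smul' _ _ := rfl

theorem ofDual_surjective (A : Type*) [AddCommGroup A] : Function.Surjective (ofDual N A) := by
  intro φ
  let := Fintype.ofFinite (SL2Z ⧸ Γ₀)
  obtain ⟨a, ha⟩ := exists_coeff N φ.2
  refine ⟨(Fintype.linearCombination ℤ a).comp (basicEval N),
    Subtype.ext (AddMonoidHom.ext fun γ => ?_)⟩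
  rw [ofDual_apply, LinearMap.comp_apply, Fintype.linearCombination_apply, ha,
    AddMonoidHom.finsetSum_apply]
  rfl

/-- Homomorphisms killing parabolic and elliptic elements are the maps out of the dual lattice. -/
def homEquiv (A : Type*) [AddCommGroup A] :
    (Module.Dual ℤ (Hpar Γ₀ ℤ) →ₗ[ℤ] A) ≃+ Hpar Γ₀ A :=
  AddEquiv.ofBijective (ofDual N A) ⟨ofDual_injective N A, ofDual_surjective N A⟩

theorem homEquiv_apply {A : Type*} [AddCommGroup A]
    (l : Module.Dual ℤ (Hpar Γ₀ ℤ) →ₗ[ℤ] A) (γ : Additive Γ₀) :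
    (homEquiv N A l).1 γ = l (evalDual N γ) := rfl

/-- The number of homomorphisms into a cyclic group. -/
theorem card_Hpar_zmod (n : ℕ) [NeZero n] :
    Nat.card (Hpar Γ₀ (ZMod n)) = n ^ Module.finrank ℤ (Hpar Γ₀ ℤ) := by
  classical
  let b := (Module.Free.chooseBasis ℤ (Hpar Γ₀ ℤ)).dualBasis
  rw [← Nat.card_congr (homEquiv N (ZMod n)).toEquiv, ← Nat.card_congr (b.constr ℤ).toEquiv,
    Nat.card_eq_fintype_card, Fintype.card_fun, ZMod.card, Module.finrank_eq_card_chooseBasisIndex]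

/-- Complex parabolic homomorphisms, from maps out of the dual lattice. -/
def complexOfDual : (Module.Dual ℤ (Hpar Γ₀ ℤ) →ₗ[ℤ] ℂ) →ₗ[ℂ]
    ModularCurve.Period.parabolicHoms ℂ Γ₀ ℂ where
  toFun l := ⟨(ofDual N ℂ l).1,
    ModularCurve.Period.mem_parabolicHoms_iff.2 (mem_Hpar_iff_parabolic.1 (ofDual N ℂ l).2)⟩
  map_add' _ _ := rfl
  map_smul' _ _ := rfl

theorem complexOfDual_bijective : Function.Bijective (complexOfDual N) :=
  ⟨fun _ _ h => ofDual_injective N ℂ (Subtype.ext (congrArg (fun φ :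
      ModularCurve.Period.parabolicHoms ℂ Γ₀ ℂ => φ.1) h)),
    fun φ => by
      obtain ⟨l, hl⟩ := ofDual_surjective N ℂ
        ⟨φ.1, mem_Hpar_iff_parabolic.2 (ModularCurve.Period.mem_parabolicHoms_iff.1 φ.2)⟩
      exact ⟨l, Subtype.ext (congrArg (fun φ : Hpar Γ₀ ℂ => φ.1) hl)⟩⟩

/-- The rank of the lattice is twice the genus. -/
theorem finrank_Hpar :
    Module.finrank ℤ (Hpar Γ₀ ℤ) = 2 * Module.finrank ℂ (CuspForm (Gamma0 N) 2) := by
  classical
  have hneg := ES.Gamma0_neg_one_mem (N := N)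
  obtain ⟨hfin, hup⟩ := ES.finrank_parabolicHoms_add_le hneg
  obtain ⟨hfinS, hlow⟩ := ES.finrank_cuspForm_ge hneg (ES.exists_span_eq_top N)
  have hinj := Submodule.finrank_mono (ES.range_periodHomPair_le (N := N))
  rw [LinearMap.finrank_range_of_inj (ES.periodHomPair_injective (N := N)), Module.finrank_prod]
    at hinj
  let b := (Module.Free.chooseBasis ℤ (Hpar Γ₀ ℤ)).dualBasis
  have h := ((b.constr ℂ).trans (LinearEquiv.ofBijective _ (complexOfDual_bijective N))).finrank_eq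
  rw [Module.finrank_pi, ← Module.finrank_eq_card_chooseBasisIndex] at h
  omega

end FLTAgent.PeriodHecke
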