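import Mathlib
import Fermat.Agent.CuspForms.HeckeDual
import Fermat.Agent.PeriodHecke.Equivariance
import Fermat.Agent.PeriodHecke.Lattice

/-!
The action of the weight two Hecke algebra on all groups of homomorphisms killing parabolic and
elliptic elements.
-/

set_option autoImplicit false

noncomputable section

open scoped MatrixGroups
open CongruenceSubgroup

namespace FLTAgent.PeriodHecke

section Abstract

variable {R M : Type*} [CommRing R] [AddCommGroup M]

/-- The transposed action on the dual. -/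
def dualAct (ρ : R →+* Module.End ℤ M) : R →+* Module.End ℤ (Module.Dual ℤ M) where
  toFun t := (ρ t).dualMap
  map_one' := by refine LinearMap.ext fun w => LinearMap.ext fun x => ?_; simp
  map_mul' s t := by
    refine LinearMap.ext fun w => LinearMap.ext fun x => ?_
    rw [mul_comm s t]
    simp
  map_zero' := by refine LinearMap.ext fun w => LinearMap.ext fun x => ?_; simp
  map_add' s t := by refine LinearMap.ext fun w => LinearMap.ext fun x => ?_; simp

theorem dualAct_apply (ρ : R →+* Module.End ℤ M) (t : R) (w : Module.Dual ℤ M) (x : M) :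
    dualAct ρ t w x = w (ρ t x) := rfl

/-- Precomposition, transported along an additive equivalence. -/
def compAct {D A B : Type*} [AddCommGroup D] [AddCommGroup A] [AddCommGroup B]
    (σ : R →+* Module.End ℤ D) (e : (D →ₗ[ℤ] A) ≃+ B) : R →+* AddMonoid.End B where
  toFun t :=
    { toFun := fun b => e (e.symm b ∘ₗ σ t)
      map_zero' := by simp
      map_add' := fun a b => by simp [LinearMap.add_comp] }
  map_one' := by
    refine AddMonoidHom.ext fun b => ?_
    show e (e.symm b ∘ₗ σ 1) = b
    rw [map_one, show e.symm b ∘ₗ (1 : Module.End ℤ D) = e.symm b from LinearMap.ext fun _ => rfl,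
      AddEquiv.apply_symm_apply]
  map_mul' s t := by
    refine AddMonoidHom.ext fun b => ?_
    show e (e.symm b ∘ₗ σ (s * t)) = e (e.symm (e (e.symm b ∘ₗ σ t)) ∘ₗ σ s)
    rw [AddEquiv.symm_apply_apply, mul_comm, map_mul, LinearMap.comp_assoc]
    rfl
  map_zero' := by
    refine AddMonoidHom.ext fun b => ?_
    show e (e.symm b ∘ₗ σ 0) = 0
    rw [map_zero, LinearMap.comp_zero, map_zero]
  map_add' s t := by
    refine AddMonoidHom.ext fun b => ?_
    show e (e.symm b ∘ₗ σ (s + t)) = e (e.symm b ∘ₗ σ s) + e (e.symm b ∘ₗ σ t)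
    rw [map_add, LinearMap.comp_add, map_add]

theorem compAct_apply {D A B : Type*} [AddCommGroup D] [AddCommGroup A] [AddCommGroup B]
    (σ : R →+* Module.End ℤ D) (e : (D →ₗ[ℤ] A) ≃+ B) (t : R) (b : B) :
    e.symm (compAct σ e t b) = e.symm b ∘ₗ σ t := e.symm_apply_apply _

theorem compAct_equiv {D A B : Type*} [AddCommGroup D] [AddCommGroup A] [AddCommGroup B]
    (σ : R →+* Module.End ℤ D) (e : (D →ₗ[ℤ] A) ≃+ B) (t : R) (l : D →ₗ[ℤ] A) :
    compAct σ e t (e l) = e (l ∘ₗ σ t) := by
  show e (e.symm (e l) ∘ₗ σ t) = _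
  rw [AddEquiv.symm_apply_apply]

end Abstract

variable (N : ℕ) [NeZero N]

local notation "Γ₀" => Gamma0 N
local notation "S2" => CuspForm (CongruenceSubgroup.Gamma0 N) 2
local notation "HH" => CuspForm.heckeAlgebra N 2 (∅ : Set ℕ)
local notation "Lat" => Hpar (CongruenceSubgroup.Gamma0 N) ℤ

theorem pairRange :
    LinearMap.range (ModularCurve.periodHomPair N) =
      ModularCurve.Period.parabolicHoms ℂ Γ₀ ℂ := by
  have hneg := ES.Gamma0_neg_one_mem (N := N)
  obtain ⟨hfin, hup⟩ := ES.finrank_parabolicHoms_add_le hneg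
  obtain ⟨hfinS, hlow⟩ := ES.finrank_cuspForm_ge hneg (ES.exists_span_eq_top N)
  refine Submodule.eq_of_le_of_finrank_le ES.range_periodHomPair_le ?_
  rw [LinearMap.finrank_range_of_inj (ES.periodHomPair_injective (N := N)), Module.finrank_prod]
  omega

/-- The Eichler–Shimura isomorphism. -/
def pairEquiv : (S2 × S2) ≃ₗ[ℂ] ModularCurve.Period.parabolicHoms ℂ Γ₀ ℂ :=
  (LinearEquiv.ofInjective _ (ES.periodHomPair_injective (N := N))).trans
    (LinearEquiv.ofEq _ _ (pairRange N))

theorem coe_pairEquiv (x : S2 × S2) :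
    (pairEquiv N x).1 = ModularCurve.periodHomPair N x := rfl

theorem coe_heckeGen (p : ℕ) [Fact p.Prime] :
    ((CuspForms.heckeGen N p Fact.out : HH) : Module.End ℂ S2) = heckeLin N p := by
  unfold CuspForms.heckeGen heckeLin
  split_ifs <;> rfl

theorem mem_generators {x : Module.End ℂ S2} (hx : x ∈ CuspForm.heckeGenerators N 2 (∅ : Set ℕ)) :
    ∃ (p : ℕ) (_ : Fact p.Prime), x = heckeLin N p := by
  rcases hx with ⟨l, hl, hlN, -, rfl⟩ | ⟨q, hqN, hq, -, rfl⟩
  · exact ⟨l, ⟨hl⟩, by unfold heckeLin; rw [dif_neg hlN]⟩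
  · exact ⟨q, ⟨hq⟩, by unfold heckeLin; rw [dif_pos hqN]⟩

/-- An endomorphism of forms, on complex homomorphisms. -/
def endC (t : Module.End ℂ S2) : Module.End ℂ (ModularCurve.Period.parabolicHoms ℂ Γ₀ ℂ) :=
  (pairEquiv N).toLinearMap ∘ₗ LinearMap.prodMap t t ∘ₗ (pairEquiv N).symm.toLinearMap

theorem endC_pairEquiv (t : Module.End ℂ S2) (x : S2 × S2) :
    endC N t (pairEquiv N x) = pairEquiv N (t x.1, t x.2) := by
  simp [endC]

theorem endC_heckeLin (p : ℕ) [Fact p.Prime] (φ : ModularCurve.Period.parabolicHoms ℂ Γ₀ ℂ) :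
    (endC N (heckeLin N p) φ).1 = (heckeFam N p).hecke φ.1 := by
  obtain ⟨⟨f, g⟩, rfl⟩ := (pairEquiv N).surjective φ
  rw [endC_pairEquiv, coe_pairEquiv, coe_pairEquiv]
  exact periodHomPair_heckeLin N p f g

theorem endC_one : endC N 1 = 1 := by
  refine LinearMap.ext fun φ => ?_
  obtain ⟨x, rfl⟩ := (pairEquiv N).surjective φ
  rw [endC_pairEquiv]; rfl

theorem endC_mul (s t : Module.End ℂ S2) : endC N (s * t) = endC N s * endC N t := by
  refine LinearMap.ext fun φ => ?_
  obtain ⟨x, rfl⟩ := (pairEquiv N).surjective φ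
  rw [Module.End.mul_apply, endC_pairEquiv, endC_pairEquiv, endC_pairEquiv]; rfl

theorem endC_add (s t : Module.End ℂ S2) : endC N (s + t) = endC N s + endC N t := by
  refine LinearMap.ext fun φ => ?_
  obtain ⟨x, rfl⟩ := (pairEquiv N).surjective φ
  rw [LinearMap.add_apply, endC_pairEquiv, endC_pairEquiv, endC_pairEquiv, ← map_add]; rfl

theorem endC_zero : endC N 0 = 0 := by
  refine LinearMap.ext fun φ => ?_
  obtain ⟨x, rfl⟩ := (pairEquiv N).surjective φ
  rw [endC_pairEquiv]
  exact map_zero (pairEquiv N)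

theorem endC_injective : Function.Injective (endC N) := by
  intro s t h
  refine LinearMap.ext fun f => ?_
  have h1 := LinearMap.congr_fun h (pairEquiv N (f, 0))
  rw [endC_pairEquiv, endC_pairEquiv] at h1
  exact congrArg Prod.fst ((pairEquiv N).injective h1)

/-- An integral homomorphism as a complex one. -/
def toComplex : Lat →+ ModularCurve.Period.parabolicHoms ℂ Γ₀ ℂ where
  toFun φ := ⟨(Int.castAddHom ℂ).comp φ.1, ModularCurve.Period.mem_parabolicHoms_iff.2
    (mem_Hpar_iff_parabolic.1 (comp_mem_Hpar _ φ.2))⟩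
  map_zero' := Subtype.ext (AddMonoidHom.ext fun _ => Int.cast_zero)
  map_add' _ _ := Subtype.ext (AddMonoidHom.ext fun _ => Int.cast_add _ _)

omit [NeZero N] in
theorem toComplex_apply (φ : Lat) (γ : Additive Γ₀) : (toComplex N φ).1 γ = (φ.1 γ : ℂ) := rfl

omit [NeZero N] in
theorem toComplex_injective : Function.Injective (toComplex N) := fun φ ψ h =>
  Subtype.ext (AddMonoidHom.ext fun γ => Int.cast_injective (α := ℂ)
    (by rw [← toComplex_apply, ← toComplex_apply, h]))

theorem exists_act (t : HH) (φ : Lat) :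
    ∃ ψ : Lat, endC N (t : Module.End ℂ S2) (toComplex N φ) = toComplex N ψ := by
  obtain ⟨t, ht⟩ := t
  induction ht using Algebra.adjoin_induction generalizing φ with
  | mem x hx =>
    obtain ⟨p, hp, rfl⟩ := mem_generators N hx
    exact ⟨(heckeFam N p).heckePar φ,
      Subtype.ext ((endC_heckeLin N p _).trans ((heckeFam N p).hecke_comp _ φ.1))⟩
  | algebraMap r =>
    refine ⟨r • φ, ?_⟩
    show endC N (algebraMap ℤ (Module.End ℂ S2) r) _ = _
    rw [map_zsmul]
    obtain ⟨x, hx⟩ := (pairEquiv N).surjective (toComplex N φ)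
    rw [← hx, endC_pairEquiv]
    exact map_zsmul (pairEquiv N) r x
  | add x y _ _ ihx ihy =>
    obtain ⟨a, ha⟩ := ihx φ
    obtain ⟨b, hb⟩ := ihy φ
    exact ⟨a + b, by rw [endC_add, LinearMap.add_apply, ha, hb, map_add]⟩
  | mul x y _ _ ihx ihy =>
    obtain ⟨b, hb⟩ := ihy φ
    obtain ⟨a, ha⟩ := ihx b
    exact ⟨a, by rw [endC_mul, Module.End.mul_apply, hb, ha]⟩

/-- The lattice valued action. -/
def actIntFun (t : HH) (φ : Lat) : Lat := (exists_act N t φ).choose

theorem toComplex_actIntFun (t : HH) (φ : Lat) :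
    toComplex N (actIntFun N t φ) = endC N (t : Module.End ℂ S2) (toComplex N φ) :=
  (exists_act N t φ).choose_spec.symm

theorem actIntFun_add (t : HH) (a b : Lat) :
    actIntFun N t (a + b) = actIntFun N t a + actIntFun N t b :=
  toComplex_injective N (by simp only [map_add, toComplex_actIntFun])

/-- The lattice valued action as a linear map. -/
def actIntLin (t : HH) : Module.End ℤ Lat :=
  (AddMonoidHom.mk' (actIntFun N t) (actIntFun_add N t)).toIntLinearMap

theorem toComplex_actIntLin (t : HH) (φ : Lat) :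
    toComplex N (actIntLin N t φ) = endC N (t : Module.End ℂ S2) (toComplex N φ) :=
  toComplex_actIntFun N t φ

theorem actIntLin_one : actIntLin N 1 = 1 := LinearMap.ext fun φ => toComplex_injective N <| by
  rw [toComplex_actIntLin, OneMemClass.coe_one, endC_one, Module.End.one_apply, Module.End.one_apply]

theorem actIntLin_mul (s t : HH) : actIntLin N (s * t) = actIntLin N s * actIntLin N t :=
  LinearMap.ext fun φ => toComplex_injective N <| by
    rw [toComplex_actIntLin, MulMemClass.coe_mul, endC_mul, Module.End.mul_apply,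
      Module.End.mul_apply, toComplex_actIntLin, toComplex_actIntLin]

theorem actIntLin_zero : actIntLin N 0 = 0 := LinearMap.ext fun φ => toComplex_injective N <| by
  rw [toComplex_actIntLin, ZeroMemClass.coe_zero, endC_zero, LinearMap.zero_apply,
    LinearMap.zero_apply, map_zero]

theorem actIntLin_add (s t : HH) : actIntLin N (s + t) = actIntLin N s + actIntLin N t :=
  LinearMap.ext fun φ => toComplex_injective N <| by
    rw [toComplex_actIntLin, AddMemClass.coe_add, endC_add, LinearMap.add_apply,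
      LinearMap.add_apply, map_add, toComplex_actIntLin, toComplex_actIntLin]

/-- The Hecke algebra acting on the lattice. -/
def actInt : HH →+* Module.End ℤ Lat where
  toFun := actIntLin N
  map_one' := actIntLin_one N
  map_mul' := actIntLin_mul N
  map_zero' := actIntLin_zero N
  map_add' := actIntLin_add N

theorem toComplex_actInt (t : HH) (φ : Lat) :
    toComplex N (actInt N t φ) = endC N (t : Module.End ℂ S2) (toComplex N φ) :=
  toComplex_actIntLin N t φ

theorem actInt_heckeGen (p : ℕ) [Fact p.Prime] (φ : Lat) :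
    actInt N (CuspForms.heckeGen N p Fact.out) φ = (heckeFam N p).heckePar φ := by
  refine toComplex_injective N (Subtype.ext ?_)
  rw [toComplex_actInt, coe_heckeGen, endC_heckeLin]
  exact (heckeFam N p).hecke_comp _ φ.1

/-- The action on the dual lattice. -/
def actDual : HH →+* Module.End ℤ (Module.Dual ℤ Lat) := dualAct (actInt N)

theorem actDual_apply (t : HH) (w : Module.Dual ℤ Lat) (φ : Lat) :
    actDual N t w φ = w (actInt N t φ) := dualAct_apply _ t w φ

/-- The Hecke algebra acting on the homomorphisms with values in any abelian group. -/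
def actA (A : Type*) [AddCommGroup A] : HH →+* AddMonoid.End (Hpar Γ₀ A) :=
  compAct (actDual N) (homEquiv N A)

theorem actA_apply {A : Type*} [AddCommGroup A] (t : HH) (φ : Hpar Γ₀ A) :
    (homEquiv N A).symm (actA N A t φ) = (homEquiv N A).symm φ ∘ₗ actDual N t :=
  compAct_apply _ _ t φ

theorem actA_homEquiv {A : Type*} [AddCommGroup A] (t : HH)
    (l : Module.Dual ℤ Lat →ₗ[ℤ] A) :
    actA N A t (homEquiv N A l) = homEquiv N A (l ∘ₗ actDual N t) :=
  compAct_equiv _ _ t l

theorem actDual_evalDual (p : ℕ) [Fact p.Prime] (γ : Γ₀) :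
    actDual N (CuspForms.heckeGen N p Fact.out) (evalDual N (Additive.ofMul γ)) =
      ∑ i, evalDual N (Additive.ofMul ((heckeFam N p).coc γ i)) :=
  LinearMap.ext fun ψ => by
    rw [actDual_apply, evalDual_apply, actInt_heckeGen, HeckeFamily.coe_heckePar,
      HeckeFamily.hecke_apply, LinearMap.sum_apply]
    exact Finset.sum_congr rfl fun i _ => (evalDual_apply N _ ψ).symm

theorem actA_heckeGen {A : Type*} [AddCommGroup A] (p : ℕ) [Fact p.Prime] (φ : Hpar Γ₀ A) :
    actA N A (CuspForms.heckeGen N p Fact.out) φ = (heckeFam N p).heckePar φ := by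
  obtain ⟨l, rfl⟩ := (homEquiv N A).surjective φ
  rw [actA_homEquiv]
  refine Subtype.ext (AddMonoidHom.ext fun γ => ?_)
  obtain ⟨γ, rfl⟩ := Additive.ofMul.surjective γ
  rw [homEquiv_apply, LinearMap.comp_apply, actDual_evalDual, HeckeFamily.coe_heckePar,
    HeckeFamily.hecke_apply, map_sum]
  exact Finset.sum_congr rfl fun i _ => (homEquiv_apply N l _).symm

theorem mapHpar_homEquiv {A B : Type*} [AddCommGroup A] [AddCommGroup B] (f : A →+ B)
    (l : Module.Dual ℤ Lat →ₗ[ℤ] A) :
    mapHpar f (homEquiv N A l) = homEquiv N B (f.toIntLinearMap ∘ₗ l) :=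
  Subtype.ext (AddMonoidHom.ext fun γ => by
    rw [coe_mapHpar, AddMonoidHom.comp_apply, homEquiv_apply, homEquiv_apply]; rfl)

theorem actA_mapHpar {A B : Type*} [AddCommGroup A] [AddCommGroup B] (f : A →+ B) (t : HH)
    (φ : Hpar Γ₀ A) : actA N B t (mapHpar f φ) = mapHpar f (actA N A t φ) := by
  obtain ⟨l, rfl⟩ := (homEquiv N A).surjective φ
  rw [mapHpar_homEquiv, actA_homEquiv, actA_homEquiv, mapHpar_homEquiv, LinearMap.comp_assoc]

theorem homEquiv_eval (φ : Lat) : homEquiv N ℤ (Module.Dual.eval ℤ Lat φ) = φ :=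
  Subtype.ext (AddMonoidHom.ext fun γ => homEquiv_apply N _ γ)

theorem actA_int (t : HH) (φ : Lat) : actA N ℤ t φ = actInt N t φ := by
  conv_lhs => rw [← homEquiv_eval N φ]
  rw [actA_homEquiv, show Module.Dual.eval ℤ Lat φ ∘ₗ actDual N t =
    Module.Dual.eval ℤ Lat (actInt N t φ) from LinearMap.ext fun w => actDual_apply N t w φ]
  exact homEquiv_eval N _

theorem actInt_injective : Function.Injective (actInt N) := by
  rw [injective_iff_map_eq_zero]
  intro t ht
  have h0 : endC N (t : Module.End ℂ S2) = 0 := by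
    refine LinearMap.ext fun φ => ?_
    let := Fintype.ofFinite (Matrix.SpecialLinearGroup (Fin 2) ℤ ⧸ Γ₀)
    obtain ⟨a, ha⟩ := exists_coeff N
      (mem_Hpar_iff_parabolic.2 (ModularCurve.Period.mem_parabolicHoms_iff.1 φ.2))
    have he : φ = ∑ x, a x • toComplex N (basicHom N x) := by
      refine Subtype.ext (ha.trans ?_)
      rw [AddSubmonoidClass.coe_finsetSum]
      refine Finset.sum_congr rfl fun x _ => AddMonoidHom.ext fun γ => ?_
      rw [scaleHom_apply, SetLike.val_smul, zsmul_eq_mul, mul_comm]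
      rfl
    rw [he, map_sum, LinearMap.zero_apply]
    refine Finset.sum_eq_zero fun x _ => ?_
    rw [map_smul, ← toComplex_actInt, ht, LinearMap.zero_apply, map_zero, smul_zero]
  exact Subtype.ext (endC_injective N (h0.trans (endC_zero N).symm))

theorem finite_hecke : Module.Finite ℤ HH :=
  Module.Finite.of_injective (actInt N).toAddMonoidHom.toIntLinearMap (actInt_injective N)

theorem free_hecke : Module.Free ℤ HH := by
  have := finite_hecke N
  exact Module.free_of_finite_type_torsion_free'

end FLTAgent.PeriodHecke
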