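import Mathlib
import Fermat.Agent.CuspForms.HeckeDual
import Fermat.Agent.PeriodHecke.Action

/-!
The dual lattice has rank two over the Hecke algebra, up to finite index; eigenspaces of dimension
two in characteristic zero and non-zero eigenspaces in positive characteristic.
-/

set_option autoImplicit false

noncomputable section

open scoped MatrixGroups
open CongruenceSubgroup

namespace FLTAgent.PeriodHecke

section Abstract

variable {R W : Type} [CommRing R] [AddCommGroup W] (σ : R →+* Module.End ℤ W)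

/-- The map given by two elements. -/
def pairMap (u v : W) : R × R →ₗ[ℤ] W :=
  (AddMonoidHom.mk' (fun x : R × R => σ x.1 u + σ x.2 v) fun x y => by
    simp only [Prod.fst_add, Prod.snd_add, map_add, LinearMap.add_apply]; abel).toIntLinearMap

theorem pairMap_apply (u v : W) (x : R × R) : pairMap σ u v x = σ x.1 u + σ x.2 v := rfl

theorem pairMap_mul (u v : W) (t : R) (x : R × R) :
    pairMap σ u v (t * x.1, t * x.2) = σ t (pairMap σ u v x) := by
  simp [pairMap_apply]

/-- A submodule not killed by a non-zero functional has finite index. -/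
theorem exists_zsmul_mem [Module.Free ℤ W] [Module.Finite ℤ W] (L : Submodule ℤ W)
    (h : ∀ c : W →ₗ[ℤ] ℤ, (∀ x ∈ L, c x = 0) → c = 0) :
    ∃ m : ℤ, m ≠ 0 ∧ ∀ w, m • w ∈ L := by
  classical
  obtain ⟨n, snf⟩ := Submodule.smithNormalForm (Module.Free.chooseBasis ℤ W) L
  have hsurj : Function.Surjective snf.f := fun j => by
    by_contra hj
    have h0 := h (snf.bM.coord j) fun x hx =>
      snf.repr_eq_zero_of_notMem_range (m := ⟨x, hx⟩) (by simpa [Set.mem_range] using hj)
    have := LinearMap.congr_fun h0 (snf.bM j)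
    simp at this
  have ha : ∀ i, snf.a i ≠ 0 := fun i h0 => by
    have := snf.snf i
    rw [h0, zero_smul] at this
    exact snf.bN.ne_zero i (Subtype.ext this)
  refine ⟨∏ i, snf.a i, Finset.prod_ne_zero_iff.2 fun i _ => ha i, fun w => ?_⟩
  rw [← snf.bM.sum_repr w, Finset.smul_sum]
  refine Submodule.sum_mem _ fun j _ => ?_
  obtain ⟨i, rfl⟩ := hsurj j
  obtain ⟨d, hd⟩ := Finset.dvd_prod_of_mem snf.a (Finset.mem_univ i)
  rw [smul_smul, hd, show snf.a i * d * snf.bM.repr w (snf.f i) =
    (d * snf.bM.repr w (snf.f i)) * snf.a i by ring, mul_smul, ← snf.snf]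
  exact L.smul_mem _ (snf.bN i).2

/-- An integral matrix without kernel has no complex kernel. -/
theorem mulVec_complex_eq_zero {a κ : Type} [Fintype a] [Fintype κ] (M : Matrix a κ ℤ)
    (hM : ∀ c : κ → ℤ, M.mulVec c = 0 → c = 0) (c : κ → ℂ)
    (hc : (M.map (Int.castRingHom ℂ)).mulVec c = 0) : c = 0 := by
  classical
  have hG : (M.transpose * M).det ≠ 0 := fun h => by
    obtain ⟨v, hv, hv0⟩ := Matrix.exists_mulVec_eq_zero_iff.2 h
    refine hv (hM v ?_)
    have h1 : dotProduct (M.mulVec v) (M.mulVec v) = 0 := by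
      rw [Matrix.dotProduct_mulVec, ← Matrix.mulVec_transpose, Matrix.mulVec_mulVec, hv0,
        zero_dotProduct]
    exact dotProduct_self_eq_zero.1 h1
  refine Matrix.eq_zero_of_mulVec_eq_zero
    (M := (M.map (Int.castRingHom ℂ)).transpose * M.map (Int.castRingHom ℂ)) ?_
    (by rw [← Matrix.mulVec_mulVec, hc, Matrix.mulVec_zero])
  rw [← Matrix.transpose_map, ← Matrix.map_mul, ← RingHom.mapMatrix_apply, ← RingHom.map_det]
  exact Int.cast_ne_zero.2 hG

theorem eval_det_mul {a c v : Type} [Fintype a] [DecidableEq a] [Fintype c] (C : Matrix a c ℂ)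
    (B : Matrix c a (MvPolynomial v ℂ)) (x : v → ℂ) :
    MvPolynomial.eval x (Matrix.of fun i i' => ∑ p, MvPolynomial.C (C i p) * B p i').det =
      (Matrix.of fun i i' => ∑ p, C i p * MvPolynomial.eval x (B p i')).det := by
  rw [RingHom.map_det]
  congr 1
  ext i i'
  simp [map_sum]

theorem exists_addHom_ne_zero {K : Type*} [Field K] (p : ℕ) [Fact p.Prime] [CharP K p] {x : K}
    (hx : x ≠ 0) : ∃ f : K →+ ZMod p, f x ≠ 0 := by
  let := ZMod.algebra K p
  obtain ⟨f, hf⟩ := Module.Projective.exists_dual_ne_zero (ZMod p) hx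
  exact ⟨f.toAddMonoidHom, hf⟩

/-- A faithful integral action stays faithful over the complex numbers. -/
theorem coeff_eq_zero {A M κ ι : Type} [CommRing A] [AddCommGroup M] [Fintype κ] [Fintype ι]
    (ρ : A →+* Module.End ℤ M) (hρ : Function.Injective ρ) (e : Module.Basis κ ℤ A)
    (bM : Module.Basis ι ℤ M) (c : κ → ℂ)
    (h : ∀ i j, ∑ k, c k * (bM.repr (ρ (e k) (bM i)) j : ℂ) = 0) : c = 0 := by
  refine mulVec_complex_eq_zero (fun (p : ι × ι) k => bM.repr (ρ (e k) (bM p.1)) p.2) ?_ c ?_
  · intro d hd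
    have h0 : ρ (∑ k, d k • e k) = 0 := bM.ext fun i => bM.repr.injective <| by
      ext j
      have := congrFun hd (i, j)
      simp only [Matrix.mulVec, dotProduct] at this
      simpa [map_sum, mul_comm] using this
    funext k
    exact Fintype.linearIndependent_iff.1 e.linearIndependent d (hρ (by rw [h0, map_zero])) k
  · ext ⟨i, j⟩
    rw [Pi.zero_apply, ← h i j]
    exact Finset.sum_congr rfl fun k _ => mul_comm _ _

/-- Compatibility with precomposition can be tested on integral functionals. -/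
theorem comp_complex_ext {V : Type} [AddCommGroup V] [Module ℂ V] [Module.Free ℤ W]
    [Module.Finite ℤ W] (F : V →ₗ[ℂ] V) (Φ : (W →ₗ[ℤ] ℂ) →ₗ[ℂ] V) (g : Module.End ℤ W)
    (h : ∀ c : W →ₗ[ℤ] ℤ, F (Φ ((Int.castAddHom ℂ).toIntLinearMap ∘ₗ c)) =
      Φ ((Int.castAddHom ℂ).toIntLinearMap ∘ₗ (c ∘ₗ g))) (l : W →ₗ[ℤ] ℂ) :
    F (Φ l) = Φ (l ∘ₗ g) := by
  classical
  let b := Module.Free.chooseBasis ℤ W
  have hl : l = ∑ i, l (b i) • ((Int.castAddHom ℂ).toIntLinearMap ∘ₗ b.coord i) :=
    b.ext fun j => by simp [Finsupp.single_apply]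
  have hg : l ∘ₗ g =
      ∑ i, l (b i) • ((Int.castAddHom ℂ).toIntLinearMap ∘ₗ (b.coord i ∘ₗ g)) :=
    LinearMap.ext fun w => by
      conv_lhs => rw [hl]
      simp [LinearMap.sum_apply]
  rw [hg, map_sum]
  conv_lhs => rw [hl, map_sum, map_sum]
  exact Finset.sum_congr rfl fun i _ => by rw [map_smul, map_smul, map_smul, h]

/-- Two complex functionals generating, over the algebra, all the functionals give two elements
generating a submodule of finite index. -/
theorem exists_pair [Module.Free ℤ W] [Module.Finite ℤ W] [Module.Free ℤ R] [Module.Finite ℤ R]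
    (hrank : 2 * Module.finrank ℤ R ≤ Module.finrank ℤ W)
    (L : Fin 2 → ((W →ₗ[ℤ] ℂ) →ₗ[ℂ] ℂ))
    (hgen : ∀ l : W →ₗ[ℤ] ℂ, (∀ j t, L j (l ∘ₗ σ t) = 0) → l = 0) :
    ∃ u v : W, Function.Injective (pairMap σ u v) ∧
      ∃ m : ℤ, m ≠ 0 ∧ ∀ w, m • w ∈ LinearMap.range (pairMap σ u v) := by
  classical
  let b := Module.Free.chooseBasis ℤ W
  let e := Module.Free.chooseBasis ℤ R
  let ι := Module.Free.ChooseBasisIndex ℤ W
  let κ := Module.Free.ChooseBasisIndex ℤ R
  let B : ∀ (S : Type) [CommRing S], (ι × Fin 2 → S) → Matrix (κ × Fin 2) ι S :=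
    fun S _ x p i' => ∑ i, (b.repr (σ (e p.1) (b i)) i' : S) * x (i, p.2)
  have key : ∀ (l : W →ₗ[ℤ] ℂ) (x : ι × Fin 2 → ℂ) (k : κ) (j : Fin 2),
      (B ℂ x).mulVec (fun i => l (b i)) (k, j) = ∑ i, x (i, j) * l (σ (e k) (b i)) := by
    intro l x k j
    have hl : ∀ w, l w = ∑ i', (b.repr w i' : ℂ) * l (b i') := fun w => by
      conv_lhs => rw [← b.sum_repr w]
      rw [map_sum]
      exact Finset.sum_congr rfl fun i' _ => by rw [map_zsmul, zsmul_eq_mul]
    simp only [B, Matrix.mulVec, dotProduct, Finset.sum_mul]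
    rw [Finset.sum_comm]
    refine Finset.sum_congr rfl fun i _ => ?_
    rw [hl (σ (e k) (b i)), Finset.mul_sum]
    exact Finset.sum_congr rfl fun i' _ => by ring
  let x₀ : ι × Fin 2 → ℂ := fun p => L p.2 (b.constr ℂ (Pi.single p.1 (1 : ℂ)))
  have hL : ∀ (l : W →ₗ[ℤ] ℂ) (j : Fin 2), L j l = ∑ i, x₀ (i, j) * l (b i) := by
    intro l j
    have : l = ∑ i, l (b i) • b.constr ℂ (Pi.single i (1 : ℂ)) := b.ext fun i' => by
      simp [Pi.single_apply]
    conv_lhs => rw [this]
    rw [map_sum]
    exact Finset.sum_congr rfl fun i _ => by rw [map_smul, smul_eq_mul, mul_comm]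
  have hinj : Function.Injective (Matrix.toLin' (B ℂ x₀)) := by
    rw [injective_iff_map_eq_zero]
    intro y hy
    have hl : b.constr ℂ y = 0 := by
      refine hgen _ fun j t => ?_
      let G : R →+ ℂ := AddMonoidHom.mk' (fun t => L j (b.constr ℂ y ∘ₗ σ t)) fun s t => by
        show L j (b.constr ℂ y ∘ₗ σ (s + t)) = _
        rw [map_add, LinearMap.comp_add, map_add]
      have hG : G.toIntLinearMap = 0 := e.ext fun k => by
        have := congrFun hy (k, j)
        rw [Matrix.toLin'_apply, show y = fun i => b.constr ℂ y (b i) by ext i; simp, key] at this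
        show L j (b.constr ℂ y ∘ₗ σ (e k)) = _
        rw [hL, LinearMap.zero_apply]
        exact this
      exact LinearMap.congr_fun hG t
    ext i
    simpa using LinearMap.congr_fun hl (b i)
  obtain ⟨g, hg⟩ := LinearMap.exists_leftInverse_of_injective _ (LinearMap.ker_eq_bot.2 hinj)
  let C := LinearMap.toMatrix' g
  have hC : C * B ℂ x₀ = 1 := by
    have := congrArg LinearMap.toMatrix' hg
    rwa [LinearMap.toMatrix'_comp, LinearMap.toMatrix'_toLin', LinearMap.toMatrix'_id] at this
  let P : MvPolynomial (ι × Fin 2) ℂ :=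
    (Matrix.of fun i i' => ∑ p, MvPolynomial.C (C i p) *
      B (MvPolynomial (ι × Fin 2) ℂ) MvPolynomial.X p i').det
  have hP : ∀ x, MvPolynomial.eval x P = (C * B ℂ x).det := by
    intro x
    refine (eval_det_mul C (B (MvPolynomial (ι × Fin 2) ℂ) MvPolynomial.X) x).trans ?_
    congr 1
    ext i i'
    rw [Matrix.mul_apply]
    refine Finset.sum_congr rfl fun p _ => congrArg _ ?_
    simp [B]
  have hP0 : P ≠ 0 := fun h0 => by
    have := hP x₀
    rw [h0, hC, Matrix.det_one, map_zero] at this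
    exact zero_ne_one this
  obtain ⟨z, hz⟩ : ∃ z : ι × Fin 2 → ℤ, MvPolynomial.eval (fun p => (z p : ℂ)) P ≠ 0 := by
    by_contra hall
    push Not at hall
    refine hP0 (MvPolynomial.funext_set (fun _ => Set.range (Int.cast : ℤ → ℂ))
      (fun _ => Set.infinite_range_of_injective Int.cast_injective) fun x hx => ?_)
    choose z hz using fun p => hx p (Set.mem_univ p)
    rw [map_zero, ← show (fun p => (z p : ℂ)) = x from funext hz]
    exact hall z
  rw [hP] at hz
  refine ⟨∑ i, z (i, 0) • b i, ∑ i, z (i, 1) • b i, ?_⟩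
  set ψ := pairMap σ (∑ i, z (i, 0) • b i) (∑ i, z (i, 1) • b i)
  obtain ⟨m, hm, hmem⟩ := exists_zsmul_mem (LinearMap.range ψ) fun c hc => by
    refine b.ext fun i => ?_
    let y : ι → ℂ := fun i => (c (b i) : ℂ)
    have hBy : (B ℂ fun p => (z p : ℂ)).mulVec y = 0 := by
      ext ⟨k, j⟩
      have hk := key ((Int.castAddHom ℂ).toIntLinearMap ∘ₗ c) (fun p => (z p : ℂ)) k j
      rw [show (fun i => ((Int.castAddHom ℂ).toIntLinearMap ∘ₗ c) (b i)) = y from rfl] at hk
      rw [hk]
      have h0 : c (σ (e k) (∑ i, z (i, j) • b i)) = 0 := by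
        fin_cases j
        · exact hc _ ⟨(e k, 0), by simp [ψ, pairMap_apply]⟩
        · exact hc _ ⟨(0, e k), by simp [ψ, pairMap_apply]⟩
      have h1 := congrArg (Int.cast : ℤ → ℂ) h0
      simpa [map_sum] using h1
    have hy : y = 0 := by
      refine Matrix.eq_zero_of_mulVec_eq_zero hz ?_
      rw [← Matrix.mulVec_mulVec, hBy, Matrix.mulVec_zero]
    simpa [y] using congrFun hy i
  refine ⟨?_, m, hm, hmem⟩
  rw [← LinearMap.ker_eq_bot]
  have hle : Module.finrank ℤ W ≤ Module.finrank ℤ (LinearMap.range ψ) :=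
    LinearMap.finrank_le_finrank_of_injective
      (f := (m • LinearMap.id : W →ₗ[ℤ] W).codRestrict (LinearMap.range ψ) hmem)
      fun a a' h => smul_right_injective W hm (by simpa using congrArg Subtype.val h)
  have h2 := Submodule.finrank_quotient_add_finrank (LinearMap.ker ψ)
  rw [ψ.quotKerEquivRange.finrank_eq, Module.finrank_prod] at h2
  exact Submodule.finrank_eq_zero.1 (by omega)

/-- Eigenvectors among the maps out of a module. -/
def eigenDual {K : Type*} [Field K] (χ : R →+* K) : Submodule K (W →ₗ[ℤ] K) where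
  carrier := {l | ∀ t w, l (σ t w) = χ t * l w}
  add_mem' ha hb t w := by simp [ha t w, hb t w, mul_add]
  zero_mem' t w := by simp
  smul_mem' c l hl t w := by simp [hl t w, mul_left_comm]

theorem mem_eigenDual {K : Type*} [Field K] {χ : R →+* K} {l : W →ₗ[ℤ] K} :
    l ∈ eigenDual σ χ ↔ ∀ t w, l (σ t w) = χ t * l w := Iff.rfl

theorem finrank_eigenDual {K : Type*} [Field K] [CharZero K] (χ : R →+* K) {u v : W}
    (hinj : Function.Injective (pairMap σ u v)) {m : ℤ} (hm : m ≠ 0)
    (hmem : ∀ w, m • w ∈ LinearMap.range (pairMap σ u v)) :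
    Module.finrank K (eigenDual σ χ) = 2 := by
  have hmK : (m : K) ≠ 0 := Int.cast_ne_zero.2 hm
  choose s hs using hmem
  have sadd : ∀ w w', s (w + w') = s w + s w' := fun w w' => hinj (by
    rw [map_add, hs, hs, hs, smul_add])
  have smul' : ∀ t w, s (σ t w) = (t * (s w).1, t * (s w).2) := fun t w => hinj (by
    rw [hs, pairMap_mul, hs, map_zsmul])
  let F : eigenDual σ χ →ₗ[K] K × K :=
    { toFun := fun l => (l.1 u, l.1 v)
      map_add' := fun _ _ => rfl
      map_smul' := fun _ _ => rfl }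
  have hval : ∀ (l : eigenDual σ χ) (w : W),
      (m : K) * l.1 w = χ (s w).1 * l.1 u + χ (s w).2 * l.1 v := by
    intro l w
    rw [← l.2, ← l.2, ← map_add, ← pairMap_apply, hs, map_zsmul, zsmul_eq_mul]
  have h : Function.Bijective F := by
    refine ⟨(injective_iff_map_eq_zero F).2 fun l hl => ?_, fun ab => ?_⟩
    · have hu : l.1 u = 0 := congrArg Prod.fst hl
      have hv : l.1 v = 0 := congrArg Prod.snd hl
      refine Subtype.ext (LinearMap.ext fun w => ?_)
      have := hval l w
      rw [hu, hv, mul_zero, mul_zero, add_zero] at this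
      simpa [hmK] using this
    let l : W →ₗ[ℤ] K := (AddMonoidHom.mk'
      (fun w => (χ (s w).1 * ab.1 + χ (s w).2 * ab.2) / (m : K)) fun w w' => by
        simp only [sadd, Prod.fst_add, Prod.snd_add, map_add]; ring).toIntLinearMap
    have hl : ∀ w, l w = (χ (s w).1 * ab.1 + χ (s w).2 * ab.2) / (m : K) := fun _ => rfl
    have su : s u = (m • 1, 0) := hinj (by
      rw [hs, pairMap_apply]; simp)
    have sv : s v = (0, m • 1) := hinj (by
      rw [hs, pairMap_apply]; simp)
    refine ⟨⟨l, fun t w => ?_⟩, Prod.ext ?_ ?_⟩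
    · rw [hl, hl, smul', map_mul, map_mul]; ring
    · show l u = ab.1
      rw [hl, su]; simp [hmK]
    · show l v = ab.2
      rw [hl, sv]; simp [hmK]
  rw [(LinearEquiv.ofBijective F h).finrank_eq, Module.finrank_prod, Module.finrank_self]

/-- The kernel of a character of positive characteristic is maximal. -/
theorem isMaximal_ker [Module.Finite ℤ R] {K : Type*} [Field K] (p : ℕ) [Fact p.Prime] [CharP K p]
    (χ : R →+* K) : (RingHom.ker χ).IsMaximal := by
  classical
  obtain ⟨n, f, hf⟩ := Module.Finite.exists_fin' ℤ R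
  let G : (Fin n → ZMod p) → K := fun a =>
    ∑ i, ZMod.castHom dvd_rfl K (a i) * χ (f (Pi.single i 1))
  have hsub : Set.range χ ⊆ Set.range G := by
    rintro _ ⟨r, rfl⟩
    obtain ⟨c, rfl⟩ := hf r
    refine ⟨fun i => (c i : ZMod p), ?_⟩
    conv_rhs => rw [pi_eq_sum_univ' c]
    rw [map_sum, map_sum]
    refine Finset.sum_congr rfl fun i _ => ?_
    rw [map_zsmul, map_zsmul, zsmul_eq_mul]
    simp
  have : Finite χ.range := ((Set.finite_range G).subset hsub).to_subtype
  have : Finite (R ⧸ RingHom.ker χ) :=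
    Finite.of_equiv χ.range (RingHom.quotientKerEquivRange χ).symm.toEquiv
  have := RingHom.ker_isPrime χ
  exact Ideal.Quotient.maximal_of_isField _ (Finite.isField_of_domain _)

/-- Every character of positive characteristic occurs. -/
theorem eigenDual_ne_bot [Module.Finite ℤ W] [Module.Finite ℤ R] (hσ : Function.Injective σ)
    {K : Type*} [Field K] (p : ℕ) [Fact p.Prime] [CharP K p] (χ : R →+* K) :
    eigenDual σ χ ≠ ⊥ := by
  classical
  have := isMaximal_ker p χ
  let := Module.compHom W σ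
  have hsmul : ∀ (t : R) (w : W), t • w = σ t w := fun _ _ => rfl
  have : Module.Finite R W := Module.Finite.of_restrictScalars_finite ℤ R W
  set m := RingHom.ker χ
  have hne : m • (⊤ : Submodule R W) ≠ ⊤ := fun h => by
    obtain ⟨r, hr, hr0⟩ := Submodule.exists_sub_one_mem_and_smul_eq_zero_of_fg_of_le_smul m ⊤
      Module.Finite.fg_top h.ge
    have : r = 0 := hσ (LinearMap.ext fun w => by
      rw [← hsmul, hr0 w Submodule.mem_top, map_zero, LinearMap.zero_apply])
    refine ‹m.IsMaximal›.ne_top ((Ideal.eq_top_iff_one m).2 ?_)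
    rw [this, zero_sub] at hr
    simpa using neg_mem hr
  let := Ideal.Quotient.field m
  obtain ⟨x, hx⟩ : ∃ x : W ⧸ (m • ⊤ : Submodule R W), x ≠ 0 := by
    have := Submodule.Quotient.nontrivial_iff.2 hne
    exact exists_ne 0
  obtain ⟨g, hg⟩ := Module.Projective.exists_dual_ne_zero (R ⧸ m) hx
  let ι : R ⧸ m →+* K := RingHom.kerLift χ
  have hι : ∀ r, ι (Ideal.Quotient.mk m r) = χ r := fun _ => rfl
  let l : W →ₗ[ℤ] K := (AddMonoidHom.mk'
    (fun w => ι (g (Submodule.Quotient.mk w))) fun a b => by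
      rw [Submodule.Quotient.mk_add, map_add, map_add]).toIntLinearMap
  refine (Submodule.ne_bot_iff _).2 ⟨l, fun t w => ?_, fun h0 => ?_⟩
  · show ι (g (Submodule.Quotient.mk (σ t w))) = _
    rw [← hsmul, Submodule.Quotient.mk_smul]
    rw [show t • (Submodule.Quotient.mk w : W ⧸ (m • ⊤ : Submodule R W)) =
      Ideal.Quotient.mk m t • (Submodule.Quotient.mk w : W ⧸ (m • ⊤ : Submodule R W)) from rfl,
      map_smul, smul_eq_mul, map_mul, hι]
    rfl
  · obtain ⟨w, rfl⟩ := Submodule.Quotient.mk_surjective _ x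
    exact hg (RingHom.injective ι (by rw [map_zero]; exact LinearMap.congr_fun h0 w))

end Abstract

variable (N : ℕ) [NeZero N]

/-- The first coefficient, as a linear functional. -/
def qCoeffOne : CuspForm (Gamma0 N) 2 →ₗ[ℂ] ℂ where
  toFun f := ModularFormClass.qCoeff ⇑f 1
  map_add' f g := CuspForms.qCoeff_add_form f g 1
  map_smul' c f := CuspForms.qCoeff_smul_form c f 1

local notation "Γ₀" => Gamma0 N
local notation "S2" => CuspForm (CongruenceSubgroup.Gamma0 N) 2
local notation "HH" => CuspForm.heckeAlgebra N 2 (∅ : Set ℕ)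
local notation "Lat" => Hpar (CongruenceSubgroup.Gamma0 N) ℤ
local notation "W'" => Module.Dual ℤ (Hpar (CongruenceSubgroup.Gamma0 N) ℤ)

omit [NeZero N] in
theorem toComplex_eq (h : Lat) :
    toComplex N h = complexOfDual N ((Int.castAddHom ℂ).toIntLinearMap ∘ₗ Module.Dual.eval ℤ Lat h) :=
  Subtype.ext (AddMonoidHom.ext fun _ => rfl)

/-- The action on complex homomorphisms through the dual lattice. -/
theorem endC_complexOfDual (t : HH) (l : W' →ₗ[ℤ] ℂ) :
    endC N (t : Module.End ℂ S2) (complexOfDual N l) = complexOfDual N (l ∘ₗ actDual N t) := by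
  refine comp_complex_ext (endC N (t : Module.End ℂ S2)) (complexOfDual N) (actDual N t) ?_ l
  intro c
  obtain ⟨h, rfl⟩ := (Module.evalEquiv ℤ Lat).surjective c
  have h1 : Module.Dual.eval ℤ Lat h ∘ₗ actDual N t = Module.Dual.eval ℤ Lat (actInt N t h) :=
    LinearMap.ext fun w => actDual_apply N t w h
  rw [Module.evalEquiv_apply, h1, ← toComplex_eq, ← toComplex_eq, toComplex_actInt]

theorem actDual_injective : Function.Injective (actDual N) := fun s t hst =>
  actInt_injective N (LinearMap.ext fun φ =>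
    (Module.evalEquiv ℤ Lat).injective (LinearMap.ext fun w => by
      rw [Module.evalEquiv_apply, Module.evalEquiv_apply, Module.Dual.eval_apply,
        Module.Dual.eval_apply, ← actDual_apply, hst, actDual_apply]))

theorem sum_dual_eq_zero {κ : Type} [Fintype κ] (c : κ → ℂ) (φ : κ → Lat)
    (h : ∑ k, c k • toComplex N (φ k) = 0) (w : W') : ∑ k, c k * (w (φ k) : ℂ) = 0 := by
  simp only [toComplex_eq, ← map_smul, ← map_sum] at h
  have h1 := (complexOfDual_bijective N).1 (h.trans (map_zero (complexOfDual N)).symm)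
  have h2 := LinearMap.congr_fun h1 w
  rw [LinearMap.zero_apply, LinearMap.sum_apply] at h2
  exact h2

instance instFiniteHecke : Module.Finite ℤ HH := finite_hecke N

instance instFreeHecke : Module.Free ℤ HH := free_hecke N

theorem finrank_hecke_le : Module.finrank ℤ HH ≤ Module.finrank ℂ S2 := by
  classical
  obtain ⟨hfinS, -⟩ := ES.finrank_cuspForm_ge (ES.Gamma0_neg_one_mem (N := N))
    (ES.exists_span_eq_top N)
  let e := Module.Free.chooseBasis ℤ HH
  let bH := Module.Free.chooseBasis ℤ Lat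
  let κ := Module.Free.ChooseBasisIndex ℤ HH
  let ι := Module.Free.ChooseBasisIndex ℤ Lat
  let F : (κ → ℂ) →ₗ[ℂ] Module.Dual ℂ S2 :=
    { toFun := fun c => ∑ k, c k • ((qCoeffOne N) ∘ₗ (e k : Module.End ℂ S2))
      map_add' := fun c d => by simp [add_smul, Finset.sum_add_distrib]
      map_smul' := fun a c => by simp [Finset.smul_sum, smul_smul] }
  have hF : Function.Injective F := by
    rw [injective_iff_map_eq_zero]
    intro c hc
    have hu : ∀ f : S2, ∑ k, c k • (e k : Module.End ℂ S2) f = 0 := fun f => by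
      refine CuspForms.eq_zero_of_qCoeff_one (N := N) fun t => ?_
      have h1 := LinearMap.congr_fun hc ((t : Module.End ℂ S2) f)
      simp only [F, LinearMap.coe_mk, AddHom.coe_mk, LinearMap.sum_apply, LinearMap.smul_apply,
        LinearMap.comp_apply, LinearMap.zero_apply] at h1
      rw [map_sum]
      show qCoeffOne N _ = 0
      rw [map_sum, ← h1]
      refine Finset.sum_congr rfl fun k _ => ?_
      rw [map_smul, map_smul]
      congr 2
      rw [← Module.End.mul_apply, ← Module.End.mul_apply, ← MulMemClass.coe_mul,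
        ← MulMemClass.coe_mul, mul_comm]
    refine coeff_eq_zero (actInt N) (actInt_injective N) e bH c fun i j => ?_
    obtain ⟨⟨f, g⟩, hfg⟩ := (pairEquiv N).surjective (toComplex N (bH i))
    have hV : ∑ k, c k • toComplex N (actInt N (e k) (bH i)) = 0 := by
      have h0 : ∑ k, c k • (((e k : Module.End ℂ S2) f, (e k : Module.End ℂ S2) g) : S2 × S2) = 0 :=
        Prod.ext (by rw [Prod.fst_sum]; exact hu f) (by rw [Prod.snd_sum]; exact hu g)
      simp only [toComplex_actInt, ← hfg, endC_pairEquiv]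
      simp only [← map_smul, ← map_sum, h0, map_zero]
    exact sum_dual_eq_zero N c (fun k => actInt N (e k) (bH i)) hV (bH.coord j)
  rw [Module.finrank_eq_card_chooseBasisIndex]
  simpa [κ] using LinearMap.finrank_le_finrank_of_injective hF

/-- The first coefficients of the two forms attached to a complex homomorphism. -/
def coeffFun (j : Fin 2) : (W' →ₗ[ℤ] ℂ) →ₗ[ℂ] ℂ :=
  qCoeffOne N ∘ₗ ![LinearMap.fst ℂ S2 S2, LinearMap.snd ℂ S2 S2] j ∘ₗ
    (pairEquiv N).symm.toLinearMap ∘ₗ complexOfDual N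

theorem coeffFun_comp (j : Fin 2) (t : HH) (l : W' →ₗ[ℤ] ℂ) :
    coeffFun N j (l ∘ₗ actDual N t) = qCoeffOne N ((t : Module.End ℂ S2)
      (![LinearMap.fst ℂ S2 S2, LinearMap.snd ℂ S2 S2] j
        ((pairEquiv N).symm (complexOfDual N l)))) := by
  obtain ⟨x, hx⟩ := (pairEquiv N).surjective (complexOfDual N l)
  rw [coeffFun, LinearMap.comp_apply, LinearMap.comp_apply, LinearMap.comp_apply,
    ← endC_complexOfDual, ← hx, endC_pairEquiv]
  fin_cases j <;> simp

theorem coeffFun_generates (l : W' →ₗ[ℤ] ℂ)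
    (h : ∀ j (t : HH), coeffFun N j (l ∘ₗ actDual N t) = 0) : l = 0 := by
  refine (complexOfDual_bijective N).1 ((pairEquiv N).symm.injective ?_)
  rw [map_zero, map_zero]
  refine Prod.ext ?_ ?_
  · exact CuspForms.eq_zero_of_qCoeff_one (N := N) fun t => (coeffFun_comp N 0 t l).symm.trans (h 0 t)
  · exact CuspForms.eq_zero_of_qCoeff_one (N := N) fun t => (coeffFun_comp N 1 t l).symm.trans (h 1 t)

/-- The dual lattice contains a free submodule of rank two over the algebra, of finite index. -/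
theorem exists_free_pair : ∃ u v : W', Function.Injective (pairMap (actDual N) u v) ∧
    ∃ m : ℤ, m ≠ 0 ∧ ∀ w, m • w ∈ LinearMap.range (pairMap (actDual N) u v) := by
  refine exists_pair (actDual N) ?_ (coeffFun N) (coeffFun_generates N)
  rw [show Module.finrank ℤ W' = Module.finrank ℤ Lat from
    (Module.Free.chooseBasis ℤ Lat).toDualEquiv.finrank_eq.symm, finrank_Hpar]
  exact Nat.mul_le_mul_left 2 (finrank_hecke_le N)

/-- The rank of the algebra is the genus. -/
theorem finrank_hecke : Module.finrank ℤ HH = Module.finrank ℂ S2 := by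
  refine le_antisymm (finrank_hecke_le N) ?_
  obtain ⟨u, v, -, m, hm, hmem⟩ := exists_free_pair N
  have h1 : Module.finrank ℤ W' ≤ Module.finrank ℤ (LinearMap.range (pairMap (actDual N) u v)) :=
    LinearMap.finrank_le_finrank_of_injective
      (f := (m • LinearMap.id : W' →ₗ[ℤ] W').codRestrict _ hmem)
      fun a a' h => smul_right_injective W' hm (by simpa using congrArg Subtype.val h)
  have h2 := LinearMap.finrank_range_le (pairMap (actDual N) u v)
  rw [Module.finrank_prod] at h2
  rw [show Module.finrank ℤ W' = Module.finrank ℤ Lat from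
    (Module.Free.chooseBasis ℤ Lat).toDualEquiv.finrank_eq.symm, finrank_Hpar] at h1
  omega

/-- A map out of the dual lattice as a homomorphism. -/
def toHom (K : Type*) [Field K] : (W' →ₗ[ℤ] K) →ₗ[K] (Additive Γ₀ →+ K) where
  toFun l := (homEquiv N K l).1
  map_add' l m := by rw [map_add]; rfl
  map_smul' c l := AddMonoidHom.ext fun γ => by
    rw [homEquiv_apply]; rfl

theorem toHom_injective (K : Type*) [Field K] : Function.Injective (toHom N K) :=
  fun _ _ h => (homEquiv N K).injective (Subtype.ext h)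

/-- Homomorphisms killing parabolic and elliptic elements with a given eigensystem. -/
def eigenHpar {K : Type*} [Field K] (χ : HH →+* K) : Submodule K (Additive Γ₀ →+ K) :=
  (eigenDual (actDual N) χ).map (toHom N K)

theorem mem_eigenHpar {K : Type*} [Field K] {χ : HH →+* K} {φ : Additive Γ₀ →+ K} :
    φ ∈ eigenHpar N χ ↔ ∃ h : φ ∈ Hpar Γ₀ K, ∀ t, (actA N K t ⟨φ, h⟩).1 = χ t • φ := by
  constructor
  · rintro ⟨l, hl, rfl⟩
    refine ⟨(homEquiv N K l).2, fun t => ?_⟩
    rw [show (⟨toHom N K l, _⟩ : Hpar Γ₀ K) = homEquiv N K l from Subtype.ext rfl, actA_homEquiv]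
    refine AddMonoidHom.ext fun γ => ?_
    rw [homEquiv_apply, LinearMap.comp_apply, hl t]
    exact congrArg _ (homEquiv_apply N l γ).symm
  · rintro ⟨h, ht⟩
    obtain ⟨l, hl⟩ := (homEquiv N K).surjective ⟨φ, h⟩
    refine ⟨l, fun t => ?_, congrArg Subtype.val hl⟩
    have h1 : l ∘ₗ actDual N t = χ t • l := toHom_injective N K <| by
      rw [map_smul]
      show (homEquiv N K (l ∘ₗ actDual N t)).1 = χ t • (homEquiv N K l).1
      rw [← actA_homEquiv, hl]
      exact ht t
    exact LinearMap.congr_fun h1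

/-- Eigenspaces in characteristic zero are two dimensional. -/
theorem finrank_eigenHpar {K : Type*} [Field K] [CharZero K] (χ : HH →+* K) :
    Module.finrank K (eigenHpar N χ) = 2 := by
  obtain ⟨u, v, hinj, m, hm, hmem⟩ := exists_free_pair N
  rw [eigenHpar, ← (Submodule.equivMapOfInjective _ (toHom_injective N K) _).finrank_eq]
  exact finrank_eigenDual (actDual N) χ hinj hm hmem

/-- Every eigensystem of positive characteristic occurs. -/
theorem eigenHpar_ne_bot {K : Type*} [Field K] (p : ℕ) [Fact p.Prime] [CharP K p]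
    (χ : HH →+* K) : eigenHpar N χ ≠ ⊥ := fun h =>
  eigenDual_ne_bot (actDual N) (actDual_injective N) p χ
    (Submodule.map_injective_of_injective (toHom_injective N K) (h.trans (Submodule.map_bot _).symm))

theorem exists_prime_mem_maximal (m : Ideal HH) [hm : m.IsMaximal] :
    ∃ p : ℕ, p.Prime ∧ (p : HH) ∈ m := by
  have hint : Algebra.IsIntegral ℤ HH := Algebra.IsIntegral.of_finite ℤ HH
  have hmax : (m.comap (algebraMap ℤ HH)).IsMaximal :=
    Ideal.isMaximal_comap_of_isIntegral_of_isMaximal m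
  obtain ⟨g, hg⟩ : ∃ g : ℤ, m.comap (algebraMap ℤ HH) = Ideal.span {g} :=
    ⟨_, (Ideal.span_singleton_generator _).symm⟩
  have hg0 : g ≠ 0 := fun h => by
    rw [h, Ideal.span_singleton_zero] at hg
    exact (Ring.ne_bot_of_isMaximal_of_not_isField hmax Int.not_isField) hg
  rw [hg] at hmax
  have hprime : Prime g := (Ideal.span_singleton_prime hg0).1 hmax.isPrime
  refine ⟨g.natAbs, Int.prime_iff_natAbs_prime.1 hprime, ?_⟩
  have hgm : ((g : ℤ) : HH) ∈ m := by
    have : g ∈ m.comap (algebraMap ℤ HH) := by rw [hg]; exact Ideal.mem_span_singleton_self g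
    exact this
  rcases Int.natAbs_eq g with h | h
  · rwa [h, Int.cast_natCast] at hgm
  · rw [h, Int.cast_neg, Int.cast_natCast, neg_mem_iff] at hgm; exact hgm

/-- A character of characteristic `p` gives a homomorphism modulo `p` killed by its kernel. -/
theorem exists_Hpar_zmod_killed_ker {K : Type*} [Field K] (p : ℕ) [Fact p.Prime] [CharP K p]
    (χ : HH →+* K) :
    ∃ φ : Hpar Γ₀ (ZMod p), φ ≠ 0 ∧ ∀ t, χ t = 0 → actA N (ZMod p) t φ = 0 := by
  obtain ⟨φ, hφ, hne⟩ := (Submodule.ne_bot_iff _).1 (eigenHpar_ne_bot N p χ)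
  obtain ⟨hmem, ht⟩ := (mem_eigenHpar N).1 hφ
  obtain ⟨γ, hγ⟩ : ∃ γ, φ γ ≠ 0 := by
    by_contra hall
    exact hne (AddMonoidHom.ext fun γ => not_not.1 fun h => hall ⟨γ, h⟩)
  obtain ⟨f, hf⟩ := exists_addHom_ne_zero p hγ
  refine ⟨mapHpar f ⟨φ, hmem⟩, fun h0 => hf ?_, fun t htm => ?_⟩
  · exact DFunLike.congr_fun (congrArg Subtype.val h0) γ
  · have h1 : actA N K t ⟨φ, hmem⟩ = 0 := Subtype.ext ((ht t).trans (by rw [htm, zero_smul]; rfl))
    rw [actA_mapHpar, h1, map_zero]

/-- Every maximal ideal of the algebra is in the support of the homomorphisms modulo `p`. -/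
theorem exists_Hpar_zmod_killed (m : Ideal HH) [m.IsMaximal] (p : ℕ) [Fact p.Prime]
    (hp : (p : HH) ∈ m) :
    ∃ φ : Hpar Γ₀ (ZMod p), φ ≠ 0 ∧ ∀ t ∈ m, actA N (ZMod p) t φ = 0 := by
  let := Ideal.Quotient.field m
  have hchar : CharP (HH ⧸ m) p := by
    refine (CharP.charP_iff_prime_eq_zero (Fact.out : p.Prime)).2 ?_
    rw [← map_natCast (Ideal.Quotient.mk m)]
    exact Ideal.Quotient.eq_zero_iff_mem.2 hp
  obtain ⟨φ, hne, hφ⟩ := exists_Hpar_zmod_killed_ker N p (Ideal.Quotient.mk m)
  exact ⟨φ, hne, fun t ht => hφ t (Ideal.Quotient.eq_zero_iff_mem.2 ht)⟩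

end FLTAgent.PeriodHecke
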