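import Fermat.Agent.PeriodHecke.Equivariance
import Fermat.Agent.PeriodHecke.Lattice

/-!
Both eigenspaces of complex conjugation meet every Hecke eigenspace of parabolic homomorphisms.
-/

set_option autoImplicit false

noncomputable section

open scoped MatrixGroups
open CongruenceSubgroup

namespace FLTAgent.PeriodHecke

local notation "M2" => Matrix (Fin 2) (Fin 2) ℤ

variable (N : ℕ) [NeZero N]

theorem periodHomPair_mem_Hpar (f g : CuspForm (Gamma0 N) 2) :
    ModularCurve.periodHomPair N (f, g) ∈ Hpar (Gamma0 N) ℂ :=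
  mem_Hpar_iff_parabolic.2
    (ES.range_periodHomPair_le (LinearMap.mem_range_self (ModularCurve.periodHomPair N) (f, g)))

/-- The first component gives invariant, the second anti-invariant homomorphisms. -/
theorem periodHomPair_jConj (f g : CuspForm (Gamma0 N) 2) :
    (ModularCurve.periodHomPair N (f, g)).comp (ModularCurve.Period.jConjGamma0 N).toAdditive =
      ModularCurve.periodHomPair N (f, -g) := by
  refine AddMonoidHom.ext fun γ => ?_
  obtain ⟨γ, rfl⟩ := Additive.ofMul.surjective γ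
  show ModularCurve.periodHomPair N (f, g)
    (Additive.ofMul (ModularCurve.Period.jConjGamma0 N γ)) = _
  rw [ES.periodHomPair_apply, ES.periodHomPair_apply, ModularCurve.Period.jConjGamma0_jConjGamma0,
    ← sub_eq_add_neg, sub_neg_eq_add]
  ring

/-- Every Hecke eigenform gives eigenclasses of both signs for complex conjugation. -/
theorem exists_eigen_signs_of_mem (P : Set ℕ) {g : CuspForm (Gamma0 N) 2} (hg : g ≠ 0) (a : ℕ → ℂ)
    (heig : ∀ (p : ℕ) [Fact p.Prime], p ∈ P → heckeLin N p g = a p • g) (ε : ℂ)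
    (hε : ε = 1 ∨ ε = -1) :
    ∃ φ ∈ Hpar (Gamma0 N) ℂ, φ ≠ 0 ∧
      φ.comp (ModularCurve.Period.jConjGamma0 N).toAdditive = ε • φ ∧
      ∀ (p : ℕ) [Fact p.Prime], p ∈ P → (heckeFam N p).hecke φ = a p • φ := by
  rcases hε with rfl | rfl
  · refine ⟨_, periodHomPair_mem_Hpar N g 0, fun h => hg ?_, ?_, fun p _ hp => ?_⟩
    · have := ES.periodHomPair_injective (h.trans (map_zero (ModularCurve.periodHomPair N)).symm)
      exact congrArg Prod.fst this
    · rw [periodHomPair_jConj, neg_zero, one_smul]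
    · rw [← periodHomPair_heckeLin, map_zero, heig p hp, ← map_smul, Prod.smul_mk, smul_zero]
  · refine ⟨_, periodHomPair_mem_Hpar N 0 g, fun h => hg ?_, ?_, fun p _ hp => ?_⟩
    · have := ES.periodHomPair_injective (h.trans (map_zero (ModularCurve.periodHomPair N)).symm)
      exact congrArg Prod.snd this
    · rw [periodHomPair_jConj, ← map_smul, Prod.smul_mk, smul_zero, neg_one_smul]
    · rw [← periodHomPair_heckeLin, map_zero, heig p hp, ← map_smul, Prod.smul_mk, smul_zero]

omit [NeZero N] in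
/-- A system of linear equations defined over a subfield has a nonzero solution in the big field
only if it has one in the subfield. -/
theorem exists_solution_of_extension {ι κ L K : Type*} [Finite κ] [Field L] [Field K] (f : L →+* K)
    (M : ι → κ → L) [Fintype κ] (v : κ → K) (hv : v ≠ 0) (h : ∀ i, ∑ j, f (M i j) * v j = 0) :
    ∃ w : κ → L, w ≠ 0 ∧ ∀ i, ∑ j, M i j * w j = 0 := by
  classical
  by_contra hno
  simp only [not_exists, not_and] at hno
  have htop : Submodule.span L (Set.range M) = ⊤ := by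
    by_contra hne
    obtain ⟨g, hg0, hg⟩ := Submodule.exists_le_ker_of_lt_top _ (lt_top_iff_ne_top.mpr hne)
    have hgc : ∀ x : κ → L, g x = ∑ j, x j * g (Pi.single j 1) := fun x => by
      conv_lhs => rw [pi_eq_sum_univ' x]
      simp [map_sum, map_smul]
    refine hno (fun j => g (Pi.single j 1)) (fun e => hg0 (LinearMap.ext fun x => ?_)) fun i => ?_
    · rw [hgc]
      simp [congrFun e]
    · rw [← hgc]
      exact hg (Submodule.subset_span ⟨i, rfl⟩)
  have key : ∀ x ∈ Submodule.span L (Set.range M), ∑ j, f (x j) * v j = 0 := by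
    intro x hx
    induction hx using Submodule.span_induction with
    | mem x hx => obtain ⟨i, rfl⟩ := hx; exact h i
    | zero => simp
    | add x y _ _ hx hy => simp [add_mul, Finset.sum_add_distrib, hx, hy]
    | smul c x _ hx => simp [mul_assoc, ← Finset.mul_sum, hx]
  refine hv (funext fun j => ?_)
  have := key (Pi.single j 1) (htop ▸ trivial)
  simpa [Pi.single_apply, apply_ite f] using this

/-- A basis of the lattice. -/
def latticeBasis : Module.Basis (Module.Free.ChooseBasisIndex ℤ (Hpar (Gamma0 N) ℤ)) ℤ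
    (Hpar (Gamma0 N) ℤ) := Module.Free.chooseBasis ℤ _

local notation "Idx" => Module.Free.ChooseBasisIndex ℤ (Hpar (Gamma0 N) ℤ)

section Coordinates

variable {K : Type*} [CommRing K]

/-- The homomorphism with given coordinates. -/
def ofCoord (v : Idx → K) : Additive (Gamma0 N) →+ K :=
  (homEquiv N K ((latticeBasis N).dualBasis.constr ℕ v)).1

theorem ofCoord_apply (v : Idx → K) (γ : Additive (Gamma0 N)) :
    ofCoord N v γ = ∑ i, v i * ((latticeBasis N i).1 γ : K) := by
  rw [ofCoord, homEquiv_apply, Module.Basis.constr_apply_fintype]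
  refine Finset.sum_congr rfl fun i _ => ?_
  rw [Module.Basis.equivFun_apply, Module.Basis.dualBasis_repr, evalDual_apply, zsmul_eq_mul,
    mul_comm]

theorem ofCoord_mem (v : Idx → K) : ofCoord N v ∈ Hpar (Gamma0 N) K := (homEquiv N K _).2

theorem ofCoord_injective : Function.Injective (ofCoord N (K := K)) := fun v w h =>
  ((latticeBasis N).dualBasis.constr ℕ (M' := K)).injective
    ((homEquiv N K).injective (Subtype.ext h))

theorem exists_coord {φ : Additive (Gamma0 N) →+ K} (hφ : φ ∈ Hpar (Gamma0 N) K) :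
    ∃ v, ofCoord N v = φ := by
  obtain ⟨l, hl⟩ := (homEquiv N K).surjective ⟨φ, hφ⟩
  obtain ⟨v, rfl⟩ := ((latticeBasis N).dualBasis.constr ℕ (M' := K)).surjective l
  exact ⟨v, congrArg Subtype.val hl⟩

/-- The matrix of a Hecke operator on the lattice. -/
def heckeMat (p : ℕ) [Fact p.Prime] : Matrix Idx Idx ℤ := fun i j =>
  (latticeBasis N).repr ((heckeFam N p).heckePar (latticeBasis N j)) i

theorem hecke_ofCoord (p : ℕ) [Fact p.Prime] (v : Idx → K) :
    (heckeFam N p).hecke (ofCoord N v) =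
      ofCoord N (((heckeMat N p).map (Int.castRingHom K)).mulVec v) := by
  refine AddMonoidHom.ext fun γ => ?_
  obtain ⟨γ, rfl⟩ := Additive.ofMul.surjective γ
  rw [HeckeFamily.hecke_apply, ofCoord_apply]
  simp only [ofCoord_apply, Matrix.mulVec, dotProduct, Matrix.map_apply, eq_intCast]
  rw [Finset.sum_comm]
  simp only [Finset.sum_mul]
  rw [Finset.sum_comm (f := fun i j => (heckeMat N p i j : K) * v j * _)]
  refine Finset.sum_congr rfl fun j _ => ?_
  have h := congrArg (fun φ : Hpar (Gamma0 N) ℤ => (φ.1 (Additive.ofMul γ) : K))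
    ((latticeBasis N).sum_repr ((heckeFam N p).heckePar (latticeBasis N j)))
  simp only [AddSubgroup.val_finsetSum, AddMonoidHom.finsetSum_apply,
    HeckeFamily.coe_heckePar, HeckeFamily.hecke_apply, Int.cast_sum] at h
  rw [← Finset.mul_sum, ← h, Finset.mul_sum]
  refine Finset.sum_congr rfl fun i _ => ?_
  show v j * ((((latticeBasis N).repr ((heckeFam N p).heckePar (latticeBasis N j))) i *
    (latticeBasis N i).1 (Additive.ofMul γ) : ℤ) : K) = _
  rw [Int.cast_mul, ← mul_assoc, mul_comm (v j)]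
  rfl

end Coordinates

/-- Hecke eigenvalues on parabolic homomorphisms are algebraic. -/
theorem isIntegral_eigenvalue {K : Type*} [Field K] (p : ℕ) [Fact p.Prime]
    {φ : Additive (Gamma0 N) →+ K} (hφ : φ ∈ Hpar (Gamma0 N) K) (h0 : φ ≠ 0) {a : K}
    (h : ∀ γ, (heckeFam N p).hecke φ γ = a * φ γ) : IsIntegral ℤ a := by
  classical
  obtain ⟨v, rfl⟩ := exists_coord N hφ
  have hv : v ≠ 0 := fun e => h0 (AddMonoidHom.ext fun γ => by simp [e, ofCoord_apply])
  have he : ((heckeMat N p).map (Int.castRingHom K)).mulVec v = a • v := by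
    refine ofCoord_injective N (AddMonoidHom.ext fun γ => ?_)
    rw [← hecke_ofCoord, h, ofCoord_apply, ofCoord_apply, Finset.mul_sum]
    simp [mul_assoc]
  refine ⟨(heckeMat N p).charpoly, (heckeMat N p).charpoly_monic, ?_⟩
  rw [← Polynomial.eval_map, algebraMap_int_eq, ← Matrix.charpoly_map, Matrix.eval_charpoly]
  refine Matrix.exists_mulVec_eq_zero_iff.mp ⟨v, hv, ?_⟩
  rw [Matrix.sub_mulVec, he, Matrix.scalar_apply, ← Matrix.smul_one_eq_diagonal, Matrix.smul_mulVec,
    Matrix.one_mulVec, sub_self]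

variable {N}

/-- Over the complex numbers eigenclasses come from eigenforms. -/
theorem exists_eigenform_of_eigenclass (P : Set ℕ) (a : ℕ → ℂ) {φ : Additive (Gamma0 N) →+ ℂ}
    (hφ : φ ∈ Hpar (Gamma0 N) ℂ) (h0 : φ ≠ 0)
    (h : ∀ (p : ℕ) [Fact p.Prime], p ∈ P → (heckeFam N p).hecke φ = a p • φ) :
    ∃ g : CuspForm (Gamma0 N) 2, g ≠ 0 ∧
      ∀ (p : ℕ) [Fact p.Prime], p ∈ P → heckeLin N p g = a p • g := by
  have hneg := ES.Gamma0_neg_one_mem (N := N)
  obtain ⟨hfin, hup⟩ := ES.finrank_parabolicHoms_add_le hneg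
  obtain ⟨hfinS, hlow⟩ := ES.finrank_cuspForm_ge hneg (ES.exists_span_eq_top N)
  have hrange : LinearMap.range (ModularCurve.periodHomPair N) =
      ModularCurve.Period.parabolicHoms ℂ (Gamma0 N) ℂ := by
    refine Submodule.eq_of_le_of_finrank_le ES.range_periodHomPair_le ?_
    rw [LinearMap.finrank_range_of_inj (ES.periodHomPair_injective (N := N)), Module.finrank_prod]
    omega
  obtain ⟨⟨f, g⟩, rfl⟩ := hrange.ge
    (ModularCurve.Period.mem_parabolicHoms_iff.2 (mem_Hpar_iff_parabolic.1 hφ))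
  have key : ∀ (p : ℕ) [Fact p.Prime], p ∈ P →
      heckeLin N p f = a p • f ∧ heckeLin N p g = a p • g := by
    intro p _ hp
    have h1 := h p hp
    rw [← periodHomPair_heckeLin, ← map_smul] at h1
    exact Prod.ext_iff.mp (ES.periodHomPair_injective h1)
  by_cases hf : f = 0
  · refine ⟨g, fun hg => h0 ?_, fun p _ hp => (key p hp).2⟩
    rw [hf, hg]
    exact map_zero _
  · exact ⟨f, hf, fun p _ hp => (key p hp).1⟩

/-- Every Hecke eigensystem occurs with both signs of complex conjugation, over any field of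
characteristic zero. -/
theorem exists_eigen_sign {K : Type} [Field K] [CharZero K] (P : Set ℕ) (hP : ∀ p ∈ P, p.Prime)
    (a : ℕ → K) {φ : Additive (Gamma0 N) →+ K} (hφ : φ ∈ Hpar (Gamma0 N) K) (h0 : φ ≠ 0)
    (h : ∀ (p : ℕ) [Fact p.Prime], p ∈ P → ∀ γ, (heckeFam N p).hecke φ γ = a p * φ γ)
    (ε : ℤ) (hε : ε = 1 ∨ ε = -1) :
    ∃ ψ ∈ Hpar (Gamma0 N) K, ψ ≠ 0 ∧
      (∀ γ : Gamma0 N, ψ (Additive.ofMul (ModularCurve.Period.jConjGamma0 N γ)) =
        (ε : K) * ψ (Additive.ofMul γ)) ∧
      ∀ (p : ℕ) [Fact p.Prime], p ∈ P → ∀ γ, (heckeFam N p).hecke ψ γ = a p * ψ γ := by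
  classical
  let E : IntermediateField ℚ K := IntermediateField.adjoin ℚ (a '' P)
  have halg : Algebra.IsAlgebraic ℚ E := by
    refine IntermediateField.isAlgebraic_adjoin ?_
    rintro _ ⟨p, hp, rfl⟩
    have := Fact.mk (hP p hp)
    exact (isIntegral_eigenvalue N p hφ h0 (h p hp)).tower_top
  let σ : E →+* ℂ := (IsAlgClosed.lift : E →ₐ[ℚ] ℂ).toRingHom
  let aE : ℕ → E := fun p => if hp : p ∈ P then
    ⟨a p, IntermediateField.subset_adjoin ℚ _ ⟨p, hp, rfl⟩⟩ else 0
  have haE : ∀ p ∈ P, (algebraMap E K) (aE p) = a p := fun p hp => by simp [aE, hp]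
  let M : {p // p ∈ P} × Gamma0 N → Idx → E := fun x i =>
    letI := Fact.mk (hP x.1.1 x.1.2)
    ((heckeFam N x.1.1).hecke (latticeBasis N i).1 (Additive.ofMul x.2) : ℤ) -
      aE x.1.1 * ((latticeBasis N i).1 (Additive.ofMul x.2) : ℤ)
  have hM : ∀ {F : Type} [Field F] (f : E →+* F) (w : Idx → F) (p : ℕ) [Fact p.Prime]
      (hp : p ∈ P) (γ : Gamma0 N), ∑ i, f (M (⟨p, hp⟩, γ) i) * w i =
        (heckeFam N p).hecke (ofCoord N w) (Additive.ofMul γ) -
          f (aE p) * ofCoord N w (Additive.ofMul γ) := by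
    intro F _ f w p _ hp γ
    simp only [M, map_sub, map_mul, map_intCast, map_sum, sub_mul, Finset.sum_sub_distrib,
      HeckeFamily.hecke_apply, ofCoord_apply, Int.cast_sum, Finset.sum_mul, Finset.mul_sum]
    rw [Finset.sum_comm]
    congr 1
    · exact Finset.sum_congr rfl fun x _ => Finset.sum_congr rfl fun i _ => mul_comm _ _
    · exact Finset.sum_congr rfl fun i _ => by ring
  obtain ⟨v, rfl⟩ := exists_coord N hφ
  obtain ⟨w, hw0, hw⟩ := exists_solution_of_extension (algebraMap E K) M v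
    (fun e => h0 (AddMonoidHom.ext fun γ => by simp [e, ofCoord_apply])) fun ⟨⟨p, hp⟩, γ⟩ => by
      have := Fact.mk (hP p hp)
      rw [hM, h p hp, haE p hp, sub_self]
  obtain ⟨g, hg0, hg⟩ := exists_eigenform_of_eigenclass P (fun p => σ (aE p))
    (ofCoord_mem N (σ ∘ w))
    (fun e => hw0 (funext fun i => σ.injective (by
      have := congrFun (ofCoord_injective N
        (e.trans (AddMonoidHom.ext fun γ => by simp [ofCoord_apply] :
          (0 : Additive (Gamma0 N) →+ ℂ) = ofCoord N (0 : Idx → ℂ)))) i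
      simpa using this)))
    (fun p _ hp => AddMonoidHom.ext fun γ => by
      obtain ⟨γ, rfl⟩ := Additive.ofMul.surjective γ
      refine sub_eq_zero.mp ?_
      show (heckeFam N p).hecke (ofCoord N (σ ∘ w)) (Additive.ofMul γ) -
        σ (aE p) * ofCoord N (σ ∘ w) (Additive.ofMul γ) = 0
      rw [← hM σ (σ ∘ w) p hp γ]
      simp only [Function.comp_apply, ← map_mul, ← map_sum, hw, map_zero])
  obtain ⟨ψ, hψ, hψ0, hψJ, hψT⟩ := exists_eigen_signs_of_mem N P hg0 _ hg (ε : ℂ)
    (by rcases hε with rfl | rfl <;> simp)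
  obtain ⟨u, rfl⟩ := exists_coord N hψ
  let M' : ({p // p ∈ P} × Gamma0 N) ⊕ Gamma0 N → Idx → E := Sum.elim M fun γ i =>
    ((latticeBasis N i).1 (Additive.ofMul (ModularCurve.Period.jConjGamma0 N γ)) : ℤ) -
      (ε : E) * ((latticeBasis N i).1 (Additive.ofMul γ) : ℤ)
  have hM' : ∀ {F : Type} [Field F] (f : E →+* F) (w : Idx → F) (γ : Gamma0 N),
      ∑ i, f (M' (Sum.inr γ) i) * w i =
        ofCoord N w (Additive.ofMul (ModularCurve.Period.jConjGamma0 N γ)) -
          (ε : F) * ofCoord N w (Additive.ofMul γ) := by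
    intro F _ f w γ
    simp only [M', Sum.elim_inr, map_sub, map_mul, map_intCast, sub_mul, Finset.sum_sub_distrib,
      ofCoord_apply, Finset.mul_sum]
    congr 1 <;> exact Finset.sum_congr rfl fun i _ => by ring
  obtain ⟨z, hz0, hz⟩ := exists_solution_of_extension σ M' u
    (fun e => hψ0 (AddMonoidHom.ext fun γ => by simp [e, ofCoord_apply])) fun x => by
      rcases x with ⟨⟨p, hp⟩, γ⟩ | γ
      · have := Fact.mk (hP p hp)
        show ∑ i, σ (M (⟨p, hp⟩, γ) i) * u i = 0
        rw [hM σ u p hp γ, hψT p hp]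
        simp
      · rw [hM', sub_eq_zero]
        exact DFunLike.congr_fun hψJ (Additive.ofMul γ)
  refine ⟨_, ofCoord_mem N (algebraMap E K ∘ z), fun e => hz0 (funext fun i => ?_), fun γ => ?_,
    fun p _ hp γ => ?_⟩
  · refine (algebraMap E K).injective ?_
    have := congrFun (ofCoord_injective N
        (e.trans (AddMonoidHom.ext fun γ => by simp [ofCoord_apply] :
          (0 : Additive (Gamma0 N) →+ K) = ofCoord N (0 : Idx → K)))) i
    simpa using this
  · refine sub_eq_zero.mp ?_
    rw [← hM' (algebraMap E K)]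
    simp only [Function.comp_apply, ← map_mul, ← map_sum, hz, map_zero]
  · obtain ⟨γ, rfl⟩ := Additive.ofMul.surjective γ
    refine sub_eq_zero.mp ?_
    rw [← haE p hp, ← hM (algebraMap E K) _ p hp γ]
    have := hz (Sum.inl (⟨p, hp⟩, γ))
    simp only [M', Sum.elim_inl] at this
    simp only [Function.comp_apply, ← map_mul, ← map_sum, this, map_zero]

end FLTAgent.PeriodHecke
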